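import Fermat.Agent.S59.ClimbDef
import Fermat.Agent.HeckeRep.Univ
import Fermat.Agent.EC.TateDatum
import Fermat.Agent.RT.Ramified
import Fermat.Agent.S59.Conclude

/-!
# The residual representation of the climb, as a representation over the residue field
-/

set_option autoImplicit false

noncomputable section

open CuspForm ModularCurve Polynomial IsLocalRing Fermat.Agent.GalRep

namespace Fermat.Agent.LRp

open Fermat.Agent.HeckeRep Fermat.Agent.TwExact Fermat.Agent.TW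

variable {p : ℕ} {𝒪 : Type} [CommRing 𝒪] [IsDomain 𝒪] [IsDiscreteValuationRing 𝒪]
  {x : GaloisRepAdic 𝒪} {r N : ℕ} {T S : Finset ℕ} {a : ℕ → 𝒪}

/-- the reduction of `x`, over the residue field -/
def xk (x : GaloisRepAdic 𝒪) : GaloisRepAdic (ResidueField 𝒪) :=
  x.baseChangeAlong (residue 𝒪) inferInstance

/-- the charpoly of Frobenius -/
theorem hasFrobCharpoly_xk [NeZero N] (hx : S59aux.ClimbData p x r N T S a)
    {M : ℕ} [NeZero M]
    (h : Occ M (↑S : Set ℕ) (fun ℓ : PIdx (↑S : Set ℕ) => residue 𝒪 (a (ℓ.1 : ℕ)))) :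
    HasFrobCharpoly (sysHom h) (xk x) := by
  intro ℓ hℓ hℓM hℓS A hA σ hσ
  have hS : ℓ ∉ S := fun h => hℓS (by simpa using h)
  rw [xk, Fermat.Agent.Tate.charpoly_baseChangeAlong', hx.frob ℓ hℓ hS A hA σ hσ,
    ← genS_of_not_dvd hℓ hℓM hℓS, sysHom_genS]
  simp

theorem absIrr_xk [hp : Fact p.Prime] (hx : S59aux.ClimbData p x r N T S a) (hp2 : p ≠ 2)
    (hp𝒪 : (p : 𝒪) ∈ maximalIdeal 𝒪) : (xk x).residual.IsAbsolutelyIrreducible :=
  Fermat.Agent.Tate.residual_isAbsolutelyIrreducible_baseChangeAlong x (residue 𝒪) inferInstance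
    (Fermat.Agent.Tate.two_ne_zero_residueField p hp2 hp𝒪)
    (c := complexConjugation) complexConjugation_mul_self
    (hx.odd _ complexConjugation_mul_self Fermat.Agent.RT.complexConjugation_ne_one) hx.abs

theorem detIsCyclotomic_xk (h : x.DetIsCyclotomic p) : (xk x).DetIsCyclotomic p :=
  detIsCyclotomic_baseChange _ _ h

theorem isStrictOrdinaryAt_xk (h : x.IsStrictOrdinaryAt p) : (xk x).IsStrictOrdinaryAt p :=
  isStrictOrdinaryAt_baseChange _ _ h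

theorem charP_residueField [hp : Fact p.Prime] (hp𝒪 : (p : 𝒪) ∈ maximalIdeal 𝒪) :
    CharP (ResidueField 𝒪) p := by
  refine Frob.charP_of_prime_natCast_eq_zero hp.out ?_
  have h1 := (residue_eq_zero_iff (R := 𝒪) (p : 𝒪)).2 hp𝒪
  rwa [map_natCast] at h1

section OccN

variable {𝒪 : Type} [CommRing 𝒪] [IsLocalRing 𝒪] [IsNoetherianRing 𝒪]
  [IsAdicComplete (maximalIdeal 𝒪) 𝒪] [IsAddTorsionFree 𝒪]

/-- If the localised `H¹` of level `N` is not zero, the system occurs at level `N`. -/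
theorem occ_of_mem_Hm {p : ℕ} (hp : p.Prime) (hp𝒪 : (p : 𝒪) ∈ maximalIdeal 𝒪) {N : ℕ}
    [NeZero N] {S : Finset ℕ} (hpS : p ∈ S) {θ : PIdx (↑S : Set ℕ) → ResidueField 𝒪}
    (hne : S41hm.StrongNonEis (↑S : Set ℕ) θ) {ε : (ZMod N)ˣ →* 𝒪ˣ} (hε : ε = 1)
    {x : TwHecke.HM N ε 𝒪} (hx : x ∈ Hm N ε 𝒪 (↑S : Set ℕ) θ) (hx0 : x ≠ 0) :
    Occ N (↑S : Set ℕ) θ := by
  intro t ht
  by_contra h0
  obtain ⟨ℓ₀, h1, h2, h3⟩ := S59aux.exists_aux_prime hne N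
  have hu : IsUnit (((ℓ₀.1 : ℕ) : ℕ) : 𝒪) := S59aux.isUnit_natCast_of_ne hp hp𝒪 ℓ₀.1.2
    (fun h => ℓ₀.2 (h ▸ Finset.mem_coe.mpr hpS))
  obtain ⟨e, he⟩ := exists_isIdem_Hm (M := N) (S := (↑S : Set ℕ)) 𝒪 ε θ
  refine hx0 (he.eq_zero hx (s := RTE.toPoly 𝒪 t) ?_
    (S59aux.cev_toPoly_eq_zero hε h1 h2 hu h3 t ht hx))
  rw [S59aux.evk_toPoly_eq]
  exact h0

/-- The two cases of the base of the climb: either the system occurs at level `N`, or the
localised `H¹` of level `N` vanishes. -/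
theorem occ_or_forall_eq_zero {p : ℕ} (hp : p.Prime) (hp𝒪 : (p : 𝒪) ∈ maximalIdeal 𝒪) {N : ℕ}
    [NeZero N] {S : Finset ℕ} (hpS : p ∈ S) {θ : PIdx (↑S : Set ℕ) → ResidueField 𝒪}
    (hne : S41hm.StrongNonEis (↑S : Set ℕ) θ) {ε : (ZMod N)ˣ →* 𝒪ˣ} (hε : ε = 1) :
    Occ N (↑S : Set ℕ) θ ∨ ∀ x ∈ Hm N ε 𝒪 (↑S : Set ℕ) θ, x = 0 := by
  by_cases h : Occ N (↑S : Set ℕ) θ
  · exact Or.inl h
  · refine Or.inr fun x hx => ?_
    by_contra hx0
    exact h (occ_of_mem_Hm hp hp𝒪 hpS hne hε hx hx0)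

end OccN

end Fermat.Agent.LRp

end
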