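import Fermat.Agent.LRp.NewBase
import Fermat.Agent.LRp.RepK
import Fermat.Agent.HSide.OfClimb

/-!
# The base of the climb in the strictly ordinary case
-/

set_option autoImplicit false
set_option linter.style.haveILetI false

noncomputable section

open CuspForm ModularCurve IsLocalRing
open scoped MatrixGroups

namespace Fermat.Agent.LRp

open Fermat.Agent.GalRep Fermat.Agent.TwExact Fermat.Agent.TwHecke Fermat.Agent.HeckeRep
  Fermat.Agent.HSide Fermat.Agent.RTE Fermat.Agent.RTD Fermat.Agent.Patch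
open Fermat.Agent.S59aux (ClimbData OccursRes)

variable {p : ℕ} [hp : Fact p.Prime] {𝒪 : Type} [CommRing 𝒪] [IsDomain 𝒪]
  [IsDiscreteValuationRing 𝒪] [IsAdicComplete (maximalIdeal 𝒪) 𝒪] [Finite (ResidueField 𝒪)]
  [CharZero 𝒪] {x : GaloisRepAdic 𝒪} {r N : ℕ} {T S : Finset ℕ} {a : ℕ → 𝒪}

theorem occursRes_cast {𝒪 : Type} [CommRing 𝒪] [IsLocalRing 𝒪] {M M' : ℕ} [NeZero M]
    [NeZero M'] (h : M = M') {S : Finset ℕ} {a : ℕ → 𝒪} (h' : OccursRes M S a) :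
    OccursRes M' S a := by
  subst h
  exact h'

/-- **(LRp)**: the `p`-new part of the bottom module of level `N p` is not zero. -/
theorem exists_new_bot [NeZero N] [NeZero (N * p)] (hx : ClimbData p x r N T S a)
    (hcond : condOrd 𝒪 p S S x) (hocc : OccursRes (N * p) S a) (hp2 : p ≠ 2)
    (hp𝒪 : (p : 𝒪) ∈ maximalIdeal 𝒪) (𝓢 : Setup 𝒪 p) (hT : 𝓢.T₀ ∪ 𝓢.V = T)
    (hqp : ∀ v, 𝓢.pr v ≠ p) (hpN : ¬ p ∣ N) :
    ∃ z : ((baseOf hx hp2 hp𝒪 𝓢 hT N (NeZero.ne N) (Or.inl rfl)).mulP hqp).M0 (∅ : Finset _),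
      z ≠ 0 ∧ (baseOf hx hp2 hp𝒪 𝓢 hT N (NeZero.ne N) (Or.inl rfl)).b1 hqp hpN ∅ z = 0 ∧
        (baseOf hx hp2 hp𝒪 𝓢 hT N (NeZero.ne N) (Or.inl rfl)).b2 hqp hpN ∅ z = 0 := by
  have hM : ((baseOf hx hp2 hp𝒪 𝓢 hT N (NeZero.ne N) (Or.inl rfl)).mulP hqp).NS
      (∅ : Finset _) = N * p := by
    rw [Base.NS, Finset.prod_empty, mul_one, Base.mulP_N]
    rfl
  have hocc' := occursRes_cast hM.symm hocc
  have hnt := S59aux.nontrivial_Hm_of_occursRes hocc' one_sq_eq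
  exact exists_new_base (baseOf hx hp2 hp𝒪 𝓢 hT N (NeZero.ne N) (Or.inl rfl)) hqp hpN ∅ hnt
    (ρ := xk x) (fun h => hasFrobCharpoly_xk hx h) (absIrr_xk hx hp2 hp𝒪)
    (detIsCyclotomic_xk hcond.1.1) (isStrictOrdinaryAt_xk hcond.1.2.1)

end Fermat.Agent.LRp

end
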