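import Fermat.Agent.LRp.Star
import Fermat.Agent.S33.Formal
import Fermat.Agent.FlatP.LineOrd
import Fermat.Agent.Mazur.CycClause

/-!
# `T_p² = 1` on the reduction of `J[𝔪]`, formal form
-/

set_option autoImplicit false

noncomputable section

open CuspForm ModularCurve Polynomial Fermat.Agent.GalRep Fermat.Agent.S33aux

namespace Fermat.Agent.LRp

open Fermat.Agent.FlatGS (IsModel pull)
open Fermat.Agent.Mazur Fermat.Agent.MazurMult Fermat.Agent.MazurCyc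

variable {N p : ℕ} [NeZero N] {S : Finset ℕ}
  {J : Type} [AddCommGroup J] [Module HeckeAlg J] [DistribMulAction GQ J]
  [SMulCommClass GQ HeckeAlg J]
  {k : Type} [Field k] [Finite k]

section Torsion

variable (J) in
/-- `J[𝔪]`, `𝔪` the kernel of `ψ`. -/
def mTors (ψ : HeckeAlgS (↑S : Set ℕ) →+* k) : AddSubgroup J where
  carrier := {x | ∀ t, ψ t = 0 → inclS (↑S : Set ℕ) t • x = 0}
  zero_mem' := fun t _ => smul_zero _
  add_mem' := fun ha hb t ht => by rw [smul_add, ha t ht, hb t ht, add_zero]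
  neg_mem' := fun ha t ht => by rw [smul_neg, ha t ht, neg_zero]

variable {ψ : HeckeAlgS (↑S : Set ℕ) →+* k}

omit [DistribMulAction GQ J] [SMulCommClass GQ HeckeAlg J] [Finite k] in
theorem mem_mTors {x : J} : x ∈ mTors J ψ ↔ ∀ t, ψ t = 0 → inclS (↑S : Set ℕ) t • x = 0 :=
  Iff.rfl

omit [Finite k] in
theorem smul_mem_mTors (g : GQ) {x : J} (hx : x ∈ mTors J ψ) : g • x ∈ mTors J ψ := fun t ht => by
  rw [← smul_comm g, hx t ht, smul_zero]

omit [DistribMulAction GQ J] [SMulCommClass GQ HeckeAlg J] [Finite k] in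
theorem inclS_mem_mTors (t : HeckeAlgS (↑S : Set ℕ)) {x : J} (hx : x ∈ mTors J ψ) :
    inclS (↑S : Set ℕ) t • x ∈ mTors J ψ := fun t' ht => by
  rw [smul_comm, hx t' ht, smul_zero]

omit [DistribMulAction GQ J] [SMulCommClass GQ HeckeAlg J] [Finite k] in
theorem nsmul_eq_zero_of_mTors [CharP k p] {x : J} (hx : x ∈ mTors J ψ) : p • x = 0 := by
  have h := hx (p : HeckeAlgS (↑S : Set ℕ)) (by rw [map_natCast, CharP.cast_eq_zero])
  rwa [map_natCast, Nat.cast_smul_eq_nsmul] at h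

end Torsion

section Main

variable {π : heckeAlgebra N 2 (↑S : Set ℕ) →+* k} {ρ : GaloisRepAdic k}

/-- the character of the polynomial Hecke algebra -/
def psi (π : heckeAlgebra N 2 (↑S : Set ℕ) →+* k) : HeckeAlgS (↑S : Set ℕ) →+* k :=
  π.comp (evS N (↑S : Set ℕ)).toRingHom

omit [Finite k] in
theorem psi_apply (t : HeckeAlgS (↑S : Set ℕ)) : psi π t = π (evS N (↑S : Set ℕ) t) := rfl

omit [Finite k] in
/-- the shape of `ρ(σ₀)` for `σ₀` in the inertia group with `χ(σ₀) = -1` -/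
theorem rho_sub_mem [CharP k p] (hp : p.Prime) (hdet : ρ.DetIsCyclotomic p)
    {A : ValuationSubring (AlgebraicClosure ℚ)}
    {b : Module.Basis (Fin 2) k ρ.V}
    (hI : ∀ τ ∈ A.inertiaSubgroupIn ℚ, ∀ v : ρ.V, ρ.ρ τ v - v ∈ k ∙ b 0)
    {ζ : AlgebraicClosure ℚ} (hζ : IsPrimitiveRoot ζ p) {σ₀ : GQ}
    (hσ₀ : σ₀ ∈ A.inertiaSubgroupIn ℚ) (hσ₀ζ : σ₀ ζ = ζ⁻¹) {v : ρ.V} (hv : v ∈ k ∙ b 0) :
    ρ.ρ σ₀ v = ((p - 1 : ℕ) : ℤ) • v := by
  have hp0 : NeZero p := ⟨hp.ne_zero⟩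
  have h1 := hdet.2 1 σ₀ (p - 1) (fun μ hμ => by
    rw [pow_one] at hμ
    obtain ⟨i, -, hi⟩ := hζ.eq_pow_of_pow_eq_one hμ
    have hμ0 : μ ≠ 0 := by
      rintro rfl
      rw [zero_pow hp.ne_zero] at hμ
      exact zero_ne_one hμ
    have h2 : σ₀ μ = μ⁻¹ := by rw [← hi, map_pow, hσ₀ζ, inv_pow]
    rw [h2]
    refine inv_eq_of_mul_eq_one_right ?_
    rw [← pow_succ', Nat.sub_add_cancel hp.one_le, hμ])
  rw [pow_one, CharP.cast_eq_zero, Ideal.span_singleton_eq_bot.mpr rfl, Ideal.mem_bot,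
    sub_eq_zero] at h1
  obtain ⟨c0, hc0⟩ := Submodule.mem_span_singleton.mp (hI σ₀ hσ₀ (b 0))
  obtain ⟨c1, hc1⟩ := Submodule.mem_span_singleton.mp (hI σ₀ hσ₀ (b 1))
  have e0 : ρ.ρ σ₀ (b 0) = (1 + c0) • b 0 := by
    rw [add_smul, one_smul, hc0]; abel
  have e1 : ρ.ρ σ₀ (b 1) = b 1 + c1 • b 0 := by
    rw [hc1]; abel
  have hd : LinearMap.det (ρ.ρ σ₀) = 1 + c0 := by
    rw [← LinearMap.det_toMatrix b, Matrix.det_fin_two]
    simp only [LinearMap.toMatrix_apply, e0, e1, map_smul, map_add, Module.Basis.repr_self,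
      Finsupp.smul_apply, Finsupp.add_apply, smul_eq_mul, Finsupp.single_apply]
    simp
  obtain ⟨c, rfl⟩ := Submodule.mem_span_singleton.mp hv
  rw [map_smul, e0, ← hd, h1, smul_comm c, natCast_zsmul, ← Nat.cast_smul_eq_nsmul k]

/-- the relation `(σ₀ - e)(g - 1) = 0` on `J[𝔪]` -/
theorem sigma_smul_sub [CharP k p] (hJ : ESInput N p (↑S : Set ℕ) J) (hp : p.Prime)
    (hpS : p ∈ S) (hNS : ∀ q : ℕ, q.Prime → q ∣ N → q ∈ S)
    (hfrob : HasFrobCharpoly π ρ) (habs : ρ.residual.IsAbsolutelyIrreducible)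
    (hdet : ρ.DetIsCyclotomic p) {A : ValuationSubring (AlgebraicClosure ℚ)}
    {b : Module.Basis (Fin 2) k ρ.V}
    (hI : ∀ τ ∈ A.inertiaSubgroupIn ℚ, ∀ v : ρ.V, ρ.ρ τ v - v ∈ k ∙ b 0)
    {ζ : AlgebraicClosure ℚ} (hζ : IsPrimitiveRoot ζ p) {σ₀ : GQ}
    (hσ₀ : σ₀ ∈ A.inertiaSubgroupIn ℚ) (hσ₀ζ : σ₀ ζ = ζ⁻¹) {g : GQ}
    (hg : ∀ v : ρ.V, ρ.ρ g v - v ∈ k ∙ b 0) {x : J} (hx : x ∈ mTors J (psi π)) :
    σ₀ • (g • x - x) = ((p - 1 : ℕ) : ℤ) • (g • x - x) := by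
  have h := kill_of_kill (m := 1) hJ hp hpS hNS hfrob habs (mTors J (psi π))
    (fun g _ hx => smul_mem_mTors g hx) (fun t _ hx => inclS_mem_mTors t hx)
    (fun x hx => by rw [pow_one]; exact nsmul_eq_zero_of_mTors hx)
    (fun t ht x hx => hx t ht) (Finset.univ : Finset (Fin 4))
    ![1, -1, -((p - 1 : ℕ) : ℤ), ((p - 1 : ℕ) : ℤ)] ![σ₀ * g, σ₀, g, 1] (fun v => by
      rw [Fin.sum_univ_four]
      simp only [Matrix.cons_val_zero, Matrix.cons_val_one, Matrix.cons_val]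
      rw [map_mul, map_one, Module.End.mul_apply, Module.End.one_apply]
      have h1 := rho_sub_mem hp hdet hI hζ hσ₀ hσ₀ζ (hg v)
      rw [map_sub, smul_sub] at h1
      rw [one_smul, neg_smul, neg_smul, one_smul]
      have h2 : ρ.ρ σ₀ (ρ.ρ g v) + -(ρ.ρ σ₀ v) + -(((p - 1 : ℕ) : ℤ) • ρ.ρ g v) +
          ((p - 1 : ℕ) : ℤ) • v = (ρ.ρ σ₀ (ρ.ρ g v) - ρ.ρ σ₀ v) -
          (((p - 1 : ℕ) : ℤ) • ρ.ρ g v - ((p - 1 : ℕ) : ℤ) • v) := by abel
      rw [h2, h1, sub_self]) hx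
  rw [Fin.sum_univ_four] at h
  simp only [Matrix.cons_val_zero, Matrix.cons_val_one, Matrix.cons_val] at h
  rw [mul_smul, one_smul, one_smul, neg_smul, neg_smul, one_smul] at h
  rw [smul_sub, smul_sub]
  have h2 : σ₀ • g • x - σ₀ • x - (((p - 1 : ℕ) : ℤ) • g • x - ((p - 1 : ℕ) : ℤ) • x) =
    σ₀ • g • x + -(σ₀ • x) + -(((p - 1 : ℕ) : ℤ) • g • x) + ((p - 1 : ℕ) : ℤ) • x := by abel
  rw [← sub_eq_zero, h2, h]

/-- **The reduction of `J[𝔪]` is not zero.** -/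
theorem exists_not_mem_ker [CharP k p] (hJ : ESInput N p (↑S : Set ℕ) J) (hp : p.Prime)
    (hp2 : p ≠ 2) (hpS : p ∈ S) (hNS : ∀ q : ℕ, q.Prime → q ∣ N → q ∈ S)
    (hfin : {x : J | p • x = 0}.Finite)
    (hfrob : HasFrobCharpoly π ρ) (habs : ρ.residual.IsAbsolutelyIrreducible)
    (hdet : ρ.DetIsCyclotomic p) {A : ValuationSubring (AlgebraicClosure ℚ)}
    (hA : A.LiesOverPrime p) {b : Module.Basis (Fin 2) k ρ.V}
    (hI : ∀ τ ∈ A.inertiaSubgroupIn ℚ, ∀ v : ρ.V, ρ.ρ τ v - v ∈ k ∙ b 0)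
    {ζ : AlgebraicClosure ℚ} (hζ : IsPrimitiveRoot ζ p) {σ₀ : GQ}
    (hσ₀ : σ₀ ∈ A.inertiaSubgroupIn ℚ) (hσ₀ζ : σ₀ ζ = ζ⁻¹)
    {W : AddSubgroup J} (hW : HasModel p J ((p : ℤ) ^ 1) A W)
    (hX : ∃ x ∈ mTors J (psi π), x ≠ 0) : ∃ x ∈ mTors J (psi π), x ∉ W := by
  classical
  by_contra hcon
  push Not at hcon
  obtain ⟨B, hB, hrel⟩ := hW
  have htor : ∀ x ∈ mTors J (psi π), x ∈ Submodule.torsionBy ℤ J ((p : ℤ) ^ 1) := by
    intro x hx
    rw [Submodule.mem_torsionBy_iff, pow_one, natCast_zsmul]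
    exact nsmul_eq_zero_of_mTors hx
  have hfinM : Finite (Submodule.torsionBy ℤ J ((p : ℤ) ^ 1)) := by
    have : ((Submodule.torsionBy ℤ J ((p : ℤ) ^ 1) : Set J)).Finite := by
      refine hfin.subset fun x hx => ?_
      have h1 := (Submodule.mem_torsionBy_iff _ _).mp hx
      rwa [pow_one, natCast_zsmul] at h1
    exact this.to_subtype
  let i : mTors J (psi π) →+ Submodule.torsionBy ℤ J ((p : ℤ) ^ 1) :=
    { toFun := fun x => ⟨x, htor x x.2⟩
      map_zero' := rfl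
      map_add' := fun _ _ => rfl }
  have hi : Function.Injective i := fun x y h => Subtype.ext (congrArg (fun z :
    Submodule.torsionBy ℤ J ((p : ℤ) ^ 1) => (z : J)) h)
  let act' : GQ → mTors J (psi π) → mTors J (psi π) := fun σ x => ⟨σ • (x : J),
    smul_mem_mTors σ x.2⟩
  have hM : IsModel p act' (B.map (pull p i)) :=
    FlatP.isModel_restrict hB i hi (fun σ m => rfl)
  have hfin' : Finite (mTors J (psi π)) := Finite.of_injective i hi
  have hconn : ∀ y : mTors J (psi π), y ∈ AddSubgroup.closure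
      {z | ∃ σ ∈ A.inertiaSubgroupIn ℚ, ∃ x, act' σ x - x = z} := by
    intro y
    rw [← FlatP.conn_eq_closure hM hp hp2 hA (fun x => Subtype.ext (by
      rw [AddSubgroup.coe_nsmul, AddSubgroup.coe_zero]
      exact nsmul_eq_zero_of_mTors x.2)), mem_conn]
    rintro _ ⟨b, hb, rfl⟩
    have h1 := hrel (i y) (hcon y y.2) b hb
    exact h1
  -- `σ₀` acts by `e` on `J[𝔪]`
  have hact : ∀ x ∈ mTors J (psi π), σ₀ • x = ((p - 1 : ℕ) : ℤ) • x := by
    intro x hx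
    have h1 := hconn ⟨x, hx⟩
    have h2 : ∀ y : mTors J (psi π), y ∈ AddSubgroup.closure
      {z | ∃ σ ∈ A.inertiaSubgroupIn ℚ, ∃ x, act' σ x - x = z} →
        σ₀ • (y : J) = ((p - 1 : ℕ) : ℤ) • (y : J) := by
      intro y hy
      induction hy using AddSubgroup.closure_induction with
      | mem z hz =>
        obtain ⟨σ, hσ, w, rfl⟩ := hz
        exact sigma_smul_sub hJ hp hpS hNS hfrob habs hdet hI hζ hσ₀ hσ₀ζ (hI σ hσ) w.2
      | zero => rw [AddSubgroup.coe_zero, smul_zero, smul_zero]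
      | add u v _ _ hu hv => rw [AddSubgroup.coe_add, smul_add, smul_add, hu, hv]
      | neg u _ hu => rw [NegMemClass.coe_neg, smul_neg, smul_neg, hu]
    exact h2 _ h1
  -- hence on `ρ`
  have htr := residual_transfer (m := 1) hJ hp hpS hNS hfrob habs (mTors J (psi π))
    (fun g _ hx => smul_mem_mTors g hx) (fun t _ hx => inclS_mem_mTors t hx)
    (fun x hx => by rw [pow_one]; exact nsmul_eq_zero_of_mTors hx)
    (fun s hs => by
      obtain ⟨x, hx, hx0⟩ := hX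
      exact ⟨x, hx, fun h => hx0 (eq_zero_of_smul (ψ := psi π) (fun t ht => hx t ht)
        (t := s) hs.ne_zero h)⟩)
    (Finset.univ : Finset (Fin 2)) ![1, -((p - 1 : ℕ) : ℤ)] ![σ₀, 1] (fun x hx => by
      rw [Fin.sum_univ_two]
      simp only [Matrix.cons_val_zero, Matrix.cons_val_one]
      rw [hact x hx, one_smul, neg_smul, one_smul, add_neg_cancel])
  have hρ : ∀ v : ρ.V, ρ.ρ σ₀ v = ((p - 1 : ℕ) : ℤ) • v := by
    intro v
    have h1 := htr v
    rw [Fin.sum_univ_two, IsLocalRing.maximalIdeal_eq_bot, Submodule.bot_smul,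
      Submodule.mem_bot] at h1
    simp only [Matrix.cons_val_zero, Matrix.cons_val_one] at h1
    rw [map_one, Module.End.one_apply, one_smul, neg_smul, add_neg_eq_zero] at h1
    exact h1
  have h1 : ((p - 1 : ℕ) : ℤ) • b 1 - b 1 ∈ k ∙ b 0 := by
    have := hI σ₀ hσ₀ (b 1)
    rwa [hρ] at this
  obtain ⟨c, hc⟩ := Submodule.mem_span_singleton.mp h1
  have h2 := congrArg (fun v => b.repr v 1) hc
  simp only [map_smul, map_sub, Module.Basis.repr_self, Finsupp.smul_apply, Finsupp.sub_apply,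
    smul_eq_mul, map_zsmul, zsmul_eq_mul] at h2
  simp only [Finsupp.single_apply] at h2
  norm_num at h2
  have h3 : ((2 : ℕ) : k) = 0 := by
    rw [Nat.cast_sub hp.one_le, CharP.cast_eq_zero] at h2
    push_cast at h2 ⊢
    linear_combination h2
  rw [CharP.cast_eq_zero_iff k p] at h3
  exact hp2 ((Nat.prime_dvd_prime_iff_eq hp Nat.prime_two).mp h3)

/-- **Theorem A** : there is an element of `J[𝔪]` with `T_p² x = x`. -/
theorem exists_fixed [CharP k p] (hJ : ESInput N p (↑S : Set ℕ) J) (hp : p.Prime)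
    (hp2 : p ≠ 2) (hpS : p ∈ S) (hNS : ∀ q : ℕ, q.Prime → q ∣ N → q ∈ S)
    (hfin : {x : J | p • x = 0}.Finite)
    (hfrob : HasFrobCharpoly π ρ) (habs : ρ.residual.IsAbsolutelyIrreducible)
    (hdet : ρ.DetIsCyclotomic p) {A : ValuationSubring (AlgebraicClosure ℚ)}
    (hA : A.LiesOverPrime p) {b : Module.Basis (Fin 2) k ρ.V}
    (hI : ∀ τ ∈ A.inertiaSubgroupIn ℚ, ∀ v : ρ.V, ρ.ρ τ v - v ∈ k ∙ b 0)
    {σ : GQ} (hz : ∀ v : ρ.V, ρ.ρ (σ * σ) v - v ∈ k ∙ b 0)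
    {C : Type} [AddCommGroup C] (red : J →+ C) (Fr : C →+ C)
    (h1 : ∀ σ ∈ A.inertiaSubgroupIn ℚ, ∀ x : J, red (σ • x) = red x)
    (h2 : ∀ x : J, red (σ • x) = Fr (red x)) (Tp : J →+ J)
    (h3 : ∀ x : J, Fr (Fr (red x)) - Fr (red (Tp x)) + p • red x = 0)
    (hTH : ∀ (t : HeckeAlgS (↑S : Set ℕ)) (x : J),
      Tp (inclS (↑S : Set ℕ) t • x) = inclS (↑S : Set ℕ) t • Tp x)
    (hW : HasModel p J ((p : ℤ) ^ 1) A red.ker)
    (hX : ∃ x ∈ mTors J (psi π), x ≠ 0) :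
    ∃ x ∈ mTors J (psi π), x ≠ 0 ∧ Tp (Tp x) = x := by
  classical
  have hp0 : NeZero p := ⟨hp.ne_zero⟩
  obtain ⟨ζ, hζ⟩ := HasEnoughRootsOfUnity.exists_primitiveRoot (AlgebraicClosure ℚ) p
  obtain ⟨σ₀, hσ₀, hσ₀ζ⟩ := exists_inertia_inv hp hA hζ
  obtain ⟨x₀, hx₀, hx₀W⟩ := exists_not_mem_ker hJ hp hp2 hpS hNS hfin hfrob habs hdet hA hI hζ
    hσ₀ hσ₀ζ hW hX
  have hred : ∀ x ∈ mTors J (psi π), Fr (Fr (red x)) = red x := by
    intro x hx
    have h4 := sigma_smul_sub hJ hp hpS hNS hfrob habs hdet hI hζ hσ₀ hσ₀ζ hz hx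
    obtain ⟨w, hw⟩ : ∃ w, w = red ((σ * σ) • x - x) := ⟨_, rfl⟩
    have h5 := congrArg red h4
    rw [h1 σ₀ hσ₀, map_zsmul, ← hw, natCast_zsmul] at h5
    have h6 : p • w = 0 := by
      rw [hw, ← map_nsmul, nsmul_eq_zero_of_mTors (ψ := psi π)
        ((mTors J (psi π)).sub_mem (smul_mem_mTors _ hx) hx), map_zero]
    have h7 : (2 : ℕ) • w = 0 := by
      have h8 : (p - 1) • w + w = p • w := by
        rw [← succ_nsmul, Nat.sub_add_cancel hp.one_le]
      rw [two_nsmul]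
      rw [← h5, h6] at h8
      exact h8
    have h8 : w = 0 := by
      have hcop : Nat.Coprime p 2 := (Nat.coprime_primes hp Nat.prime_two).mpr hp2
      have h9 := Nat.gcd_eq_gcd_ab p 2
      rw [hcop.gcd_eq_one] at h9
      have h10 : ((1 : ℕ) : ℤ) • w = 0 := by
        rw [h9, add_smul, mul_comm, mul_smul, natCast_zsmul, h6, smul_zero, mul_comm, mul_smul,
          natCast_zsmul, h7, smul_zero, add_zero]
      rwa [Nat.cast_one, one_smul] at h10
    rw [hw, map_sub, mul_smul, h2, h2, sub_eq_zero] at h8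
    exact h8
  have hTX : ∀ x ∈ mTors J (psi π), Tp x ∈ mTors J (psi π) := by
    intro x hx t ht
    rw [← hTH, hx t ht, map_zero]
  have hkey : ∀ x ∈ mTors J (psi π), red (Tp (Tp x)) = red x := by
    have h4 : ∀ x ∈ mTors J (psi π), Fr (red (Tp x)) = red x := by
      intro x hx
      have h5 := h3 x
      rw [← map_nsmul red, nsmul_eq_zero_of_mTors hx, map_zero, add_zero, sub_eq_zero,
        hred x hx] at h5
      exact h5.symm
    intro x hx
    rw [← hred _ (hTX _ (hTX x hx)), h4 _ (hTX x hx)]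
    exact h4 x hx
  by_contra hcon
  push Not at hcon
  have hXfin : Finite (mTors J (psi π)) := by
    have : ((mTors J (psi π) : Set J)).Finite := hfin.subset fun x hx => nsmul_eq_zero_of_mTors hx
    exact this.to_subtype
  let f : mTors J (psi π) →+ mTors J (psi π) :=
    { toFun := fun x => ⟨Tp (Tp x) - x, (mTors J (psi π)).sub_mem (hTX _ (hTX _ x.2)) x.2⟩
      map_zero' := Subtype.ext (by
        change Tp (Tp 0) - 0 = 0
        rw [map_zero, map_zero, sub_zero])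
      map_add' := fun x y => Subtype.ext (by
        change Tp (Tp ((x : J) + y)) - ((x : J) + y) = (Tp (Tp (x : J)) - x) + (Tp (Tp (y : J)) - y)
        rw [map_add, map_add]
        abel) }
  have hinj : Function.Injective f := by
    rw [injective_iff_map_eq_zero]
    intro x hx
    by_contra hne
    have h4 : (x : J) ≠ 0 := fun h => hne (Subtype.ext h)
    refine hcon x x.2 h4 ?_
    have h5 := congrArg Subtype.val hx
    exact sub_eq_zero.mp h5
  obtain ⟨y, hy⟩ := Finite.surjective_of_injective hinj ⟨x₀, hx₀⟩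
  apply hx₀W
  have h4 := congrArg Subtype.val hy
  have h5 : Tp (Tp (y : J)) - (y : J) = x₀ := h4
  rw [AddMonoidHom.mem_ker, ← h5, map_sub, hkey y y.2, sub_self]

end Main

end Fermat.Agent.LRp

end
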