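import Fermat.Agent.HSide.IharaN
import Fermat.Agent.Ribet.FormsMod

/-!
# If there is no `p`-new kernel then `T_p² - 1` is injective modulo `ϖ`
-/

set_option autoImplicit false
set_option linter.unusedSectionVars false

noncomputable section

open Matrix.SpecialLinearGroup CongruenceSubgroup IsLocalRing
open scoped MatrixGroups

namespace Fermat.Agent.LRp

open TwHecke HeckePar TwExact HeckeRep HSide S41hm

section Abs

variable {R A Ap : Type*} [CommRing R] [AddCommGroup A] [Module R A] [AddCommGroup Ap]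
  [Module R Ap]

/-- the formal argument -/
theorem abs_aux (i1 i2 : A →ₗ[R] Ap) (j1 j2 : Ap →ₗ[R] A) (T : A →ₗ[R] A) {q ϖ : R}
    (hϖ : ϖ ∣ q) (h11 : ∀ x, j1 (i1 x) = (q + 1) • x) (h12 : ∀ x, j1 (i2 x) = T x)
    (h21 : ∀ x, j2 (i1 x) = T x) (h22 : ∀ x, j2 (i2 x) = (q + 1) • x)
    (hsurj : ∀ x y, ∃ z, j1 z = x ∧ j2 z = y)
    (hih : ∀ x y z, i1 x + i2 y = ϖ • z → ∃ x', x = ϖ • x')
    (hK : ∀ z, j1 z = 0 → j2 z = 0 → z = 0) {x : A} (hx : ∃ y, T (T x) - x = ϖ • y) :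
    ∃ x', x = ϖ • x' := by
  obtain ⟨c, rfl⟩ := hϖ
  obtain ⟨w, hw⟩ := hx
  obtain ⟨z', h1, h2⟩ := hsurj (c • x - w) (-(c • T x))
  have e1 : j1 (i1 x + i2 (-(T x))) = ϖ • (c • x - w) := by
    rw [map_add, h11, h12, map_neg, smul_sub, ← hw, smul_smul, add_smul, one_smul]
    abel
  have e2 : j2 (i1 x + i2 (-(T x))) = ϖ • (-(c • T x)) := by
    rw [map_add, h21, h22, smul_neg, smul_neg, smul_smul, add_smul, one_smul]
    abel
  have e3 : i1 x + i2 (-(T x)) - ϖ • z' = 0 := by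
    refine hK _ ?_ ?_
    · rw [map_sub, map_smul, h1, e1, sub_self]
    · rw [map_sub, map_smul, h2, e2, sub_self]
  exact hih _ _ _ (sub_eq_zero.mp e3)

end Abs

section Inj

variable {M M' p : ℕ} [NeZero M] [hpF : Fact p.Prime] (hpM : ¬ p ∣ M) (h : M * p = M')
  {R : Type} [CommRing R] [IsLocalRing R] [IsNoetherianRing R] [IsAdicComplete (maximalIdeal R) R]
  [CharP (ResidueField R) p] (hp2 : p ≠ 2)
  {η : (ZMod M)ˣ →* Rˣ} {η' : (ZMod M')ˣ →* Rˣ} (hη : infl (Dvd.intro p h) η = η') {S : Set ℕ}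
  {θ : PIdx S → ResidueField R} (hpS : p ∈ S) (hres : ∀ u, residue R (η u : R) = 1)
  (hne : S41hm.StrongNonEis S θ) (hG : Good M (η ^ 2) S θ)
  (hS : ∀ ℓ : ℕ, ℓ.Prime → ℓ ∣ M' → ℓ ∈ S)
  (hK : ∀ z : Hm M' (η' ^ 2) R S θ, j1 hpF.out hpM h hη θ hpS z = 0 →
    j2 hpF.out hpM h hη θ hpS z = 0 → z = 0)

include hp2 hres hne hG hS hK in
/-- If the `p`-new kernel vanishes then `T_p² - 1` is injective modulo every divisor of `p`. -/
theorem exists_smul_of_sq {ϖ : R} (hϖ : ϖ ∣ (p : R)) {x : Hm M (η ^ 2) R S θ}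
    (hx : ∃ y, tvm M p η (η ^ 2) S θ (tvm M p η (η ^ 2) S θ x) - x = ϖ • y) :
    ∃ x', x = ϖ • x' :=
  abs_aux (i1 hpF.out h hη θ hpS) (i2 hpF.out h hη θ hpS) (j1 hpF.out hpM h hη θ hpS)
    (j2 hpF.out hpM h hη θ hpS) (tvm M p η (η ^ 2) S θ) hϖ
    (fun x => j1_i1 hpF.out hpM h hη θ hpS x) (fun x => j1_i2 hpF.out hpM h hη θ hpS x)
    (fun x => j2_i1 hpF.out hpM h hη θ hpS x) (fun x => j2_i2 hpF.out hpM h hη θ hpS x)
    (fun x y => surj_j (p := p) hpF.out hpM h hpF.out hp2 hη hpS hres hne hG x y)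
    (fun x y z e => (ihara_i hpF.out hpM h hpF.out hp2 hη hpS hres hne hG hS ϖ x y z e).1) hK hx

end Inj

section Residual

variable {M p : ℕ} [NeZero M] [hpF : Fact p.Prime]
  {R : Type} [CommRing R] [IsLocalRing R] [IsNoetherianRing R] [IsAdicComplete (maximalIdeal R) R]
  {η : (ZMod M)ˣ →* Rˣ} {S : Set ℕ} {θ : PIdx S → ResidueField R}
  (hres : ∀ u, residue R (η u : R) = 1)

include hres in
/-- `T_p` and reduction. -/
theorem map_tvm (x : Hm M (η ^ 2) R S θ) :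
    H1.map (chr M (η ^ 2)) (RTI.resL R) (tvm M p η (η ^ 2) S θ x : HM M (η ^ 2) R) =
      heckeH M p (η ^ 2) (ResidueField R) (H1.map (chr M (η ^ 2)) (RTI.resL R)
        (x : HM M (η ^ 2) R)) := by
  have h1 : ((η (unitOf M p) : Rˣ) : R) - 1 ∈ maximalIdeal R := by
    rw [← residue_eq_zero_iff, map_sub, hres, map_one, sub_self]
  rw [coe_tvm, map_smul, heckeH_map]
  have h2 := HM_killed (residue_sq hres) _ h1 (H1.map (chr M (η ^ 2)) (RTI.resL R)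
    (heckeH M p (η ^ 2) R (x : HM M (η ^ 2) R)))
  rw [sub_smul, one_smul, sub_eq_zero] at h2
  exact h2

end Residual

section Main

variable {M M' p : ℕ} [NeZero M] [hpF : Fact p.Prime] (hpM : ¬ p ∣ M) (h : M * p = M')
  {R : Type} [CommRing R] [IsDomain R] [IsDiscreteValuationRing R]
  [IsAdicComplete (maximalIdeal R) R]
  [CharP (ResidueField R) p] (hp2 : p ≠ 2)
  {η : (ZMod M)ˣ →* Rˣ} {η' : (ZMod M')ˣ →* Rˣ} (hη : infl (Dvd.intro p h) η = η') {S : Set ℕ}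
  {θ : PIdx S → ResidueField R} (hpS : p ∈ S) (hres : ∀ u, residue R (η u : R) = 1)
  (hne : S41hm.StrongNonEis S θ) (hG : Good M (η ^ 2) S θ)
  (hS : ∀ ℓ : ℕ, ℓ.Prime → ℓ ∣ M' → ℓ ∈ S)
  (hK : ∀ z : Hm M' (η' ^ 2) R S θ, j1 hpF.out hpM h hη θ hpS z = 0 →
    j2 hpF.out hpM h hη θ hpS z = 0 → z = 0)

include hp2 hres hne hG hS hK in
/-- If the `p`-new kernel vanishes then there is no residual eigenvector with `T_p² = 1`. -/
theorem false_of_eigenvector {ψ : Additive (Gamma0 M) →+ ResidueField R} (hψ0 : ψ ≠ 0)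
    (hψ : ∀ (ℓ : ℕ) [Fact ℓ.Prime] (hℓ : ℓ ∉ S), ∀ g,
      (heckeSys M ℓ).addTransfer ψ g = θ ⟨⟨ℓ, Fact.out⟩, hℓ⟩ * ψ g)
    (hψp : (heckeSys M p).addTransfer ((heckeSys M p).addTransfer ψ) = ψ) : False := by
  have hε := residue_sq hres
  have hH : ∀ (ℓ : ℕ) [Fact ℓ.Prime] (ψ : Additive (Gamma0 M) →+ ResidueField R),
      heckeH M ℓ (η ^ 2) (ResidueField R) (H1.mk (ofHom hε ψ)) =
        H1.mk (ofHom hε ((heckeSys M ℓ).addTransfer ψ)) := by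
    intro ℓ _ ψ
    rw [heckeH_mk]
    congr 1
    have h1 := toHom_heckeZ hε ℓ (ofHom hε ψ)
    rw [← ofHom_toHom hε (heckeZ M ℓ (η ^ 2) (ResidueField R) (ofHom hε ψ)), h1]
    rfl
  choose r hr using fun ℓ : PIdx S => residue_surjective (R := R) (θ ℓ)
  have hc : ∀ ℓ : PIdx S, hop M (η ^ 2) (ResidueField R) S ℓ (H1.mk (ofHom hε ψ)) =
      r ℓ • H1.mk (ofHom hε ψ) := by
    intro ℓ
    have : Fact (ℓ.1 : ℕ).Prime := ⟨ℓ.1.2⟩
    show heckeH M (ℓ.1 : ℕ) (η ^ 2) (ResidueField R) (H1.mk (ofHom hε ψ)) = _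
    rw [hH, ← H1.mk_smul]
    congr 1
    ext g
    rw [Z1.smul_apply, smul_residue, hr, ofHom_apply, ofHom_apply]
    exact hψ (ℓ.1 : ℕ) ℓ.2 _
  have hmem : H1.mk (ofHom hε ψ) ∈ Hm M (η ^ 2) (ResidueField R) S θ :=
    Ribet.mem_mpart_of_eigen _ (r := r) hr hc
  obtain ⟨x, hx⟩ := hG.surjective (RTI.resL R) RTI.resL_surjective ⟨_, hmem⟩
  have hx' : H1.map (chr M (η ^ 2)) (RTI.resL R) (x : HM M (η ^ 2) R) =
      H1.mk (ofHom hε ψ) := congrArg Subtype.val hx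
  obtain ⟨ϖ, hϖ⟩ := IsDiscreteValuationRing.exists_irreducible R
  have hmax := hϖ.maximalIdeal_eq
  have hker : ∀ y : Hm M (η ^ 2) R S θ,
      H1.map (chr M (η ^ 2)) (RTI.resL R) (y : HM M (η ^ 2) R) = 0 ↔ ∃ y', y = ϖ • y' := by
    intro y
    have h1 : y ∈ LinearMap.ker (HmMap M (η ^ 2) S θ (RTI.resL R)) ↔
        H1.map (chr M (η ^ 2)) (RTI.resL R) (y : HM M (η ^ 2) R) = 0 := by
      rw [LinearMap.mem_ker]
      exact ⟨fun h => congrArg Subtype.val h, fun h => Subtype.ext h⟩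
    rw [← h1, RTI.ker_HmMap_residue hG, hmax, HSide.mem_ideal_span_smul_top]
  have hpR : ϖ ∣ (p : R) := by
    rw [← Ideal.mem_span_singleton, ← hmax, ← residue_eq_zero_iff, map_natCast,
      CharP.cast_eq_zero]
  have h1 : ∃ y, tvm M p η (η ^ 2) S θ (tvm M p η (η ^ 2) S θ x) - x = ϖ • y := by
    rw [← hker]
    rw [AddSubgroupClass.coe_sub, map_sub, map_tvm hres, map_tvm hres, hx', hH, hH, hψp, sub_self]
  obtain ⟨x', hx2⟩ := exists_smul_of_sq hpM h hp2 hη hpS hres hne hG hS hK hpR h1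
  have h2 := (hker x).mpr ⟨x', hx2⟩
  rw [hx', mk_eq_zero hε] at h2
  apply hψ0
  ext g
  exact congrArg (fun c : ZM M (η ^ 2) (ResidueField R) => c g) h2

end Main

end Fermat.Agent.LRp

end
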