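import Fermat.Agent.LRp.Formal
import Fermat.Agent.HopfPair.Stab
import Fermat.Agent.SO.Main

/-!
# `T_p² = 1` somewhere on `J_0(N)[𝔪]` for a strictly ordinary `𝔪`
-/

set_option autoImplicit false
set_option linter.style.haveILetI false

noncomputable section

open CuspForm ModularCurve Polynomial Fermat.Agent.GalRep Fermat.Agent.S33aux
open Fermat.Agent.Mazur Fermat.Agent.MazurMult Fermat.Agent.MazurCyc

namespace Fermat.Agent.LRp

section Strict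

variable {k : Type} [Field k] {p : ℕ}

/-- a strictly ordinary representation over a field of characteristic `p`: the unramified
quotient character is quadratic. -/
theorem exists_basis_of_strict [CharP k p] (hp : p.Prime) {ρ : GaloisRepAdic k}
    (hdet : ρ.DetIsCyclotomic p) (h : ρ.IsStrictOrdinaryAt p)
    {A : ValuationSubring (AlgebraicClosure ℚ)} (hA : A.LiesOverPrime p) :
    ∃ b : Module.Basis (Fin 2) k ρ.V,
      (∀ τ ∈ A.inertiaSubgroupIn ℚ, ∀ v : ρ.V, ρ.ρ τ v - v ∈ k ∙ b 0) ∧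
      ∀ σ ∈ A.decompositionSubgroup ℚ, ∀ v : ρ.V, ρ.ρ (σ * σ) v - v ∈ k ∙ b 0 := by
  obtain ⟨L, ⟨b, rfl⟩, hD, hI, hS⟩ := h.2 A hA
  refine ⟨b, hI, fun σ hσ v => ?_⟩
  obtain ⟨x, z, hx, hz, hxz⟩ := hS σ hσ
  haveI : NeZero p := ⟨hp.ne_zero⟩
  obtain ⟨ζ, hζ⟩ := HasEnoughRootsOfUnity.exists_primitiveRoot (AlgebraicClosure ℚ) p
  obtain ⟨a, -, ha⟩ : ∃ a : ℕ, a < p ∧ ζ ^ a = σ ζ :=
    hζ.eq_pow_of_pow_eq_one (by rw [← map_pow, hζ.pow_eq_one, map_one])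
  have hμ : ∀ μ : AlgebraicClosure ℚ, μ ^ p ^ 1 = 1 → σ μ = μ ^ a := by
    intro μ hμ
    rw [pow_one] at hμ
    obtain ⟨i, -, rfl⟩ := hζ.eq_pow_of_pow_eq_one hμ
    rw [map_pow, ← ha, ← pow_mul, ← pow_mul, mul_comm]
  have hp0 : ((p ^ 1 : ℕ) : k) = 0 := by rw [pow_one, CharP.cast_eq_zero]
  have h1 := hxz 1 a hμ
  rw [hp0, Ideal.span_singleton_eq_bot.mpr rfl, Ideal.mem_bot, sub_eq_zero] at h1
  have h2 := hdet.2 1 σ a hμ
  rw [hp0, Ideal.span_singleton_eq_bot.mpr rfl, Ideal.mem_bot, sub_eq_zero] at h2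
  obtain ⟨c, hc⟩ := Submodule.mem_span_singleton.mp (hz (b 1))
  have h3 : ρ.ρ σ (b 1) = z • b 1 + c • b 0 := by rw [hc]; abel
  have h4 : ρ.ρ σ (b 0) = x • b 0 := hx _ (Submodule.mem_span_singleton_self _)
  have h5 : LinearMap.det (ρ.ρ σ) = x * z := by
    rw [← LinearMap.det_toMatrix b, Matrix.det_fin_two]
    simp [LinearMap.toMatrix_apply, h3, h4]
  have ha0 : (a : k) ≠ 0 := by
    intro h0
    rw [CharP.cast_eq_zero_iff k p] at h0
    obtain ⟨d, rfl⟩ := h0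
    rw [pow_mul, hζ.pow_eq_one, one_pow] at ha
    have h6 : σ ζ = σ 1 := by rw [map_one, ha]
    exact hζ.ne_one hp.one_lt (σ.injective h6)
  have h6 : z * z = 1 := by
    rw [h5, h1] at h2
    have h7 : (a : k) * (z * z) = a * 1 := by rw [mul_one, ← mul_assoc, h2]
    exact mul_left_cancel₀ ha0 h7
  have h7 : ρ.ρ (σ * σ) v - v = (ρ.ρ σ (ρ.ρ σ v) - z • ρ.ρ σ v) + z • (ρ.ρ σ v - z • v) := by
    rw [map_mul, Module.End.mul_apply, smul_sub, smul_smul, h6, one_smul]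
    abel
  rw [h7]
  exact add_mem (hz _) (Submodule.smul_mem _ _ (hz v))

end Strict

section JZero

variable {N p : ℕ} [NeZero N] {S : Finset ℕ} {k : Type} [Field k] [Finite k]
  {π : heckeAlgebra N 2 (↑S : Set ℕ) →+* k} {ρ : GaloisRepAdic k}

/-- **Theorem A** for `J_0(N)`, `p ∤ N`. -/
theorem exists_fixed_JZero [CharP k p] (hp : p.Prime) (hN : ¬ p ∣ N)
    (hp2 : p ≠ 2) (hpS : p ∈ S) (hNS : ∀ q : ℕ, q.Prime → q ∣ N → q ∈ S)
    (hfrob : HasFrobCharpoly π ρ) (habs : ρ.residual.IsAbsolutelyIrreducible)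
    (hdet : ρ.DetIsCyclotomic p) {A : ValuationSubring (AlgebraicClosure ℚ)}
    (hA : A.LiesOverPrime p) {b : Module.Basis (Fin 2) k ρ.V}
    (hI : ∀ τ ∈ A.inertiaSubgroupIn ℚ, ∀ v : ρ.V, ρ.ρ τ v - v ∈ k ∙ b 0)
    (hz : ∀ σ ∈ A.decompositionSubgroup ℚ, ∀ v : ρ.V, ρ.ρ (σ * σ) v - v ∈ k ∙ b 0)
    (hX : letI := heckeModuleBar N; ∃ x ∈ mTors (JZero N) (psi π), x ≠ 0) :
    letI := heckeModuleBar N
    ∃ x ∈ mTors (JZero N) (psi π), x ≠ 0 ∧
      heckeOperatorBar N ⟨p, hp⟩ (heckeOperatorBar N ⟨p, hp⟩ x) = x := by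
  letI := heckeModuleBar N
  haveI := Cofaith.smulCommClass_JZero N
  obtain ⟨C, _, red, Fr, h1, h2, h3, h4⟩ := HopfPair.modelRed N hp hA hN
  obtain ⟨φ, hφ⟩ := Fermat.Agent.Frob.exists_isFrobeniusAt hp hA
  refine exists_fixed (SO.esInput hp _ N fun q h1 h2 => by simpa using hNS q h1 h2) hp hp2 hpS hNS
    (Cofaith.finite_torsion_set N hp.ne_zero) hfrob habs hdet hA hI (hz φ hφ.1) red Fr h1
    (h2 φ hφ) (heckeOperatorBar N ⟨p, hp⟩) h3 (fun t x => ?_) (h4 1) hX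
  have h := Fermat.Agent.HeckeComm.heckeOperatorsCommuteBar N
  have h5 : ∀ y : JZero N, heckeGen (⟨p, hp⟩ : Nat.Primes) • y =
      heckeOperatorBar N (⟨p, hp⟩ : Nat.Primes) y := fun y =>
    heckeModuleBar_heckeGen_smul h (⟨p, hp⟩ : Nat.Primes) y
  change heckeOperatorBar N (⟨p, hp⟩ : Nat.Primes) (inclS (↑S : Set ℕ) t • x) =
    inclS (↑S : Set ℕ) t • heckeOperatorBar N (⟨p, hp⟩ : Nat.Primes) x
  rw [← h5, ← h5]
  exact smul_comm (heckeGen (⟨p, hp⟩ : Nat.Primes)) (inclS (↑S : Set ℕ) t) x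

end JZero

end Fermat.Agent.LRp

end
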