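import Fermat.Agent.Patch.PNew
import Fermat.Agent.TwExact.MPart

/-!
# `K = 0` implies that `T² - 1` is invertible
-/

set_option autoImplicit false

noncomputable section

open IsLocalRing

namespace Fermat.Agent.LRp

open Fermat.Agent.Patch TwExact

section Abstract

variable {B : Type*} [CommRing B] {Ap A : Type*} [AddCommGroup Ap] [Module B Ap] [AddCommGroup A]
  [Module B A]

/-- If the `p`-new kernel vanishes then `T² - 1` is injective modulo `ϖ`. -/
theorem dvd_of_newKer_eq_bot {j1 j2 : Ap →ₗ[B] A} {i1 i2 : A →ₗ[B] Ap} {T : A → A} {v ϖ : B}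
    (hv : ϖ ∣ v) (h11 : ∀ x, j1 (i1 x) = (v + 1) • x) (h12 : ∀ x, j1 (i2 x) = T x)
    (h21 : ∀ x, j2 (i1 x) = T x) (h22 : ∀ x, j2 (i2 x) = (v + 1) • x)
    (hsurj : ∀ x y, ∃ z, j1 z = x ∧ j2 z = y)
    (hihara : ∀ x y z, i1 x + i2 y = ϖ • z → (∃ x', x = ϖ • x') ∧ ∃ y', y = ϖ • y')
    (hK : newKer j1 j2 = ⊥) {x y : A} (hx : T (T x) = x + ϖ • y) : ∃ x', x = ϖ • x' := by
  obtain ⟨c, rfl⟩ := hv
  have hT : T (-x) = -T x := by
    rw [← h12, map_neg, map_neg, h12]
  have e1 : j1 (i1 (T x) + i2 (-x)) = ϖ • (c • T x) := by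
    rw [map_add, h11, h12, hT, add_smul, one_smul, add_neg_cancel_right, mul_smul]
  have e2 : j2 (i1 (T x) + i2 (-x)) = ϖ • (y - c • x) := by
    rw [map_add, h21, h22, hx, add_smul, one_smul, mul_smul, smul_sub, smul_neg, smul_neg]
    abel
  obtain ⟨z, hz1, hz2⟩ := hsurj (c • T x) (y - c • x)
  have h3 : i1 (T x) + i2 (-x) - ϖ • z ∈ newKer j1 j2 := by
    rw [mem_newKer, map_sub, map_sub, e1, e2, map_smul, map_smul, hz1, hz2, sub_self, sub_self]
    exact ⟨rfl, rfl⟩
  rw [hK, Submodule.mem_bot, sub_eq_zero] at h3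
  obtain ⟨-, y', hy'⟩ := hihara _ _ z h3
  exact ⟨-y', by rw [smul_neg, ← hy', neg_neg]⟩

end Abstract

section Eigen

variable {R : Type} [CommRing R] [IsLocalRing R] [IsNoetherianRing R]
  [IsAdicComplete (maximalIdeal R) R]
  {ι ι' : Type} {θ : ι → ResidueField R} {θ' : ι' → ResidueField R}
  {H : Type} [AddCommGroup H] [Module R H] [Module.Finite R H]
  {T : ι → Module.End R H} {T' : ι' → Module.End R H}

omit [IsNoetherianRing R] [IsAdicComplete (maximalIdeal R) R] [Module.Finite R H] in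
/-- more operators: a smaller `𝔪`-part -/
theorem mpart_le_mpart (hT : ∀ i j, Commute (T i) (T j)) (hT' : ∀ i j, Commute (T' i) (T' j))
    (e : ι → ι') (hθ : ∀ i, θ' (e i) = θ i) (he : ∀ i, T' (e i) = T i) :
    mpart θ' T' hT' ≤ mpart θ T hT := by
  intro x hx
  rw [mem_mpart] at hx ⊢
  intro t ht
  have h1 : ∀ t : MvPolynomial ι R, evk θ' (MvPolynomial.rename e t) = evk θ t := by
    intro t
    induction t using MvPolynomial.induction_on with
    | C a => rw [MvPolynomial.rename_C, evk_C, evk_C]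
    | add p q hp hq => rw [map_add, map_add, map_add, hp, hq]
    | mul_X p i hp => rw [map_mul, map_mul, map_mul, hp, MvPolynomial.rename_X, evk_X, evk_X, hθ]
  have h2 : ∀ t : MvPolynomial ι R, ∀ y, cev T' hT' (MvPolynomial.rename e t) y =
      cev T hT t y := by
    intro t
    induction t using MvPolynomial.induction_on with
    | C a => intro y; rw [MvPolynomial.rename_C, cev_C, cev_C]
    | add p q hp hq =>
      intro y
      rw [map_add, map_add, map_add, LinearMap.add_apply, LinearMap.add_apply, hp, hq]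
    | mul_X p i hp =>
      intro y
      rw [map_mul, map_mul, map_mul, Module.End.mul_apply, Module.End.mul_apply, hp,
        MvPolynomial.rename_X, cev_X, cev_X, he]
  obtain ⟨y, hy⟩ := hx (MvPolynomial.rename e t) (by rw [h1]; exact ht)
  exact ⟨y, by rw [← h2, hy]⟩

/-- There is an element of the `𝔪`-part which is an eigenvector modulo `ϖ` and not divisible by
`ϖ` (in the whole module). -/
theorem exists_eigen_mod [Finite (ResidueField R)] {ϖ : R} (hϖ : maximalIdeal R = Ideal.span {ϖ})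
    (htf : ∀ x : H, ϖ • x = 0 → x = 0) (hT : ∀ i j, Commute (T i) (T j))
    (hne : mpart θ T hT ≠ ⊥) (i : ι) (c : R) (hc : residue R c = θ i) :
    ∃ x ∈ mpart θ T hT, (∀ y : H, x ≠ ϖ • y) ∧ ∃ y ∈ mpart θ T hT, T i x = c • x + ϖ • y := by
  classical
  obtain ⟨e, he⟩ := exists_isIdem (θ := θ) (hT := hT) R
  -- saturation
  have hsat : ∀ x ∈ mpart θ T hT, (∃ y : H, x = ϖ • y) → ∃ y ∈ mpart θ T hT, x = ϖ • y := by
    rintro x hx ⟨y, rfl⟩
    refine ⟨y, ?_, rfl⟩
    have h1 := he.mem_iff.mp hx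
    rw [map_smul, ← sub_eq_zero, ← smul_sub] at h1
    exact he.mem_iff.mpr (sub_eq_zero.mp (htf _ h1))
  haveI : Module.Finite R (mpart θ T hT) := finite_mpart (𝒪 := R) hT
  have hmem : ∀ x : mpart θ T hT, x ∈ (maximalIdeal R • ⊤ : Submodule R (mpart θ T hT)) ↔
      ∃ y, x = ϖ • y := by
    intro x
    rw [hϖ, Submodule.ideal_span_singleton_smul, Submodule.mem_smul_pointwise_iff_exists]
    constructor
    · rintro ⟨y, -, rfl⟩
      exact ⟨y, rfl⟩
    · rintro ⟨y, rfl⟩
      exact ⟨y, trivial, rfl⟩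
  have hbot : ¬ (⊤ : Submodule R (mpart θ T hT)) ≤ maximalIdeal R • ⊤ := by
    intro h1
    have h2 := Submodule.eq_bot_of_le_smul_of_le_jacobson_bot (maximalIdeal R) _
      (Module.Finite.fg_top) h1 (IsLocalRing.maximalIdeal_le_jacobson _)
    apply hne
    rw [eq_bot_iff]
    intro x hx
    have h3 : (⟨x, hx⟩ : mpart θ T hT) ∈ (⊤ : Submodule R (mpart θ T hT)) := trivial
    rw [h2, Submodule.mem_bot] at h3
    exact congrArg Subtype.val h3
  by_contra hcon
  push Not at hcon
  -- the operator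
  let g : Module.End R (mpart θ T hT) := (cev T hT (MvPolynomial.X i - MvPolynomial.C c)).restrict
    fun x hx => cev_mem_mpart hT _ hx
  have hg : ∀ x : mpart θ T hT, ((g x : mpart θ T hT) : H) =
      cev T hT (MvPolynomial.X i - MvPolynomial.C c) x := fun x => rfl
  have hgn : ∀ (n : ℕ) (x : mpart θ T hT), (((g ^ n) x : mpart θ T hT) : H) =
      cev T hT ((MvPolynomial.X i - MvPolynomial.C c) ^ n) x := by
    intro n
    induction n with
    | zero => intro x; rw [pow_zero, pow_zero, map_one]; rfl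
    | succ n ih =>
      intro x
      rw [pow_succ', pow_succ', cev_mul_apply, Module.End.mul_apply, hg, ih]
  let I : Submodule R (mpart θ T hT) := maximalIdeal R • ⊤
  haveI : Finite (R ⧸ maximalIdeal R) := inferInstanceAs (Finite (ResidueField R))
  haveI : Module.Finite (R ⧸ maximalIdeal R) (mpart θ T hT ⧸ I) :=
    Module.Finite.of_restrictScalars_finite R _ _
  haveI : Finite (mpart θ T hT ⧸ I) := Module.finite_of_finite (R ⧸ maximalIdeal R)
  have hI : I ≤ I.comap g := Submodule.smul_top_le_comap_smul_top _ _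
  let gb : Module.End R (mpart θ T hT ⧸ I) := I.mapQ I g hI
  have hgb : ∀ x, gb (Submodule.Quotient.mk x) = Submodule.Quotient.mk (g x) := fun x =>
    Submodule.mapQ_apply _ _ _ _
  have hinj : Function.Injective gb := by
    rw [injective_iff_map_eq_zero]
    intro x
    induction x using Submodule.Quotient.induction_on with
    | _ x =>
      intro hx
      rw [hgb, Submodule.Quotient.mk_eq_zero] at hx
      rw [Submodule.Quotient.mk_eq_zero]
      obtain ⟨y, hy⟩ := (hmem _).mp hx
      have h1 : T i x = c • (x : H) + ϖ • (y : H) := by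
        have h2 := congrArg Subtype.val hy
        rw [hg, map_sub, cev_X, cev_C, LinearMap.sub_apply, Module.algebraMap_end_apply] at h2
        rw [← sub_eq_iff_eq_add', h2]
        rfl
      by_contra hx2
      refine hcon x x.2 (fun y' hy' => ?_) y y.2 h1
      obtain ⟨y2, hy2, hy3⟩ := hsat x x.2 ⟨y', hy'⟩
      exact hx2 ((hmem x).mpr ⟨⟨y2, hy2⟩, Subtype.ext hy3⟩)
  have hbij : Function.Bijective gb := Finite.injective_iff_bijective.mp hinj
  let E : Equiv.Perm (mpart θ T hT ⧸ I) := Equiv.ofBijective gb hbij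
  have hE : ∀ (n : ℕ) x, (E ^ n) x = (gb ^ n) x := by
    intro n
    induction n with
    | zero => intro x; rfl
    | succ n ih =>
      intro x
      rw [pow_succ', pow_succ', Equiv.Perm.mul_apply, Module.End.mul_apply, ih]
      rfl
  have hgbn : ∀ (n : ℕ) x, (gb ^ n) (Submodule.Quotient.mk x) =
      Submodule.Quotient.mk ((g ^ n) x) := by
    intro n
    induction n with
    | zero => intro x; rfl
    | succ n ih =>
      intro x
      rw [pow_succ', pow_succ', Module.End.mul_apply, Module.End.mul_apply, ih, hgb]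
  obtain ⟨n, hn0, hn⟩ : ∃ n : ℕ, n ≠ 0 ∧ E ^ n = 1 :=
    ⟨orderOf E, (orderOf_pos E).ne', pow_orderOf_eq_one E⟩
  apply hbot
  rintro x -
  obtain ⟨y, hy, hyx⟩ := he.exists_preimage x.2
    (s := 1 - (MvPolynomial.X i - MvPolynomial.C c) ^ n) (by
      rw [map_sub, map_one, map_pow, map_sub, evk_X, evk_C, hc, sub_self, zero_pow hn0, sub_zero]
      exact one_ne_zero)
  have h4 : x = ⟨y, hy⟩ - (g ^ n) ⟨y, hy⟩ := by
    apply Subtype.ext
    rw [← hyx, map_sub, map_one, LinearMap.sub_apply, Module.End.one_apply, AddSubgroupClass.coe_sub,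
      hgn]
  rw [h4, ← Submodule.Quotient.mk_eq_zero (p := maximalIdeal R • ⊤), Submodule.Quotient.mk_sub]
  have h5 := hgbn n ⟨y, hy⟩
  rw [← hE, hn] at h5
  exact sub_eq_zero.mpr h5

end Eigen

end Fermat.Agent.LRp

end
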