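import Fermat.Agent.LRp.Formal

/-!
# `J[𝔪] ≠ 0`
-/

set_option autoImplicit false

noncomputable section

open CuspForm ModularCurve Polynomial Fermat.Agent.GalRep Fermat.Agent.S33aux

namespace Fermat.Agent.LRp

section Abstract

variable {A : Type*} [CommRing A] {M : Type*} [AddCommGroup M] [Module A M] [Finite M]
  {k : Type*} [Field k]

/-- A finite module on which no element outside `𝔪 = ker ψ` vanishes has a nonzero element killed
by `𝔪`. -/
theorem exists_killed (ψ : A →+* k) (h : ∀ s, ψ s ≠ 0 → ∃ x : M, s • x ≠ 0) :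
    ∃ x : M, x ≠ 0 ∧ ∀ t, ψ t = 0 → t • x = 0 := by
  classical
  have hfin : Finite (Submodule A M) := Finite.of_injective (fun N => (N : Set M))
    SetLike.coe_injective
  have hwf : WellFounded ((· < ·) : Submodule A M → Submodule A M → Prop) := wellFounded_lt
  let f : A → M →ₗ[A] M := fun s => LinearMap.lsmul A M s
  have hf : ∀ s x, f s x = s • x := fun s x => rfl
  obtain ⟨N₀, ⟨s₀, hs₀, rfl⟩, hmin₀⟩ := hwf.has_min
    {N : Submodule A M | ∃ s, ψ s ≠ 0 ∧ N = LinearMap.range (f s)}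
    ⟨_, 1, by rw [map_one]; exact one_ne_zero, rfl⟩
  have hbij : ∀ s, ψ s ≠ 0 → ∀ x ∈ LinearMap.range (f s₀), s • x = 0 → x = 0 := by
    intro s hs x hx hsx
    have h1 : LinearMap.range (f (s * s₀)) ≤ LinearMap.range (f s₀) := by
      rintro _ ⟨y, rfl⟩
      exact ⟨s • y, by rw [hf, hf, smul_smul, mul_comm]⟩
    have h2 : LinearMap.range (f (s * s₀)) = LinearMap.range (f s₀) := by
      by_contra hne
      exact hmin₀ _ ⟨s * s₀, by rw [map_mul]; exact mul_ne_zero hs hs₀, rfl⟩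
        (lt_of_le_of_ne h1 hne)
    let g : LinearMap.range (f s₀) → LinearMap.range (f s₀) := fun y =>
      ⟨s • (y : M), (LinearMap.range (f s₀)).smul_mem s y.2⟩
    have hsurj : Function.Surjective g := by
      rintro ⟨y, hy⟩
      rw [← h2] at hy
      obtain ⟨z, hz⟩ := hy
      refine ⟨⟨f s₀ z, ⟨z, rfl⟩⟩, Subtype.ext ?_⟩
      show s • f s₀ z = y
      rw [← hz, hf, hf, smul_smul]
    have hinj : Function.Injective g := Finite.injective_iff_surjective.mpr hsurj
    have h3 : (⟨x, hx⟩ : LinearMap.range (f s₀)) = 0 := by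
      apply hinj
      apply Subtype.ext
      show s • x = s • (0 : M)
      rw [hsx, smul_zero]
    exact congrArg Subtype.val h3
  have hN₀ : LinearMap.range (f s₀) ≠ ⊥ := by
    intro hb
    obtain ⟨x, hx⟩ := h s₀ hs₀
    apply hx
    have h1 : f s₀ x ∈ LinearMap.range (f s₀) := ⟨x, rfl⟩
    rw [hb, Submodule.mem_bot] at h1
    exact h1
  obtain ⟨N₁, ⟨hN₁, hle⟩, hmin₁⟩ := hwf.has_min
    {N : Submodule A M | N ≠ ⊥ ∧ N ≤ LinearMap.range (f s₀)} ⟨_, hN₀, le_rfl⟩
  obtain ⟨x, hx, hx0⟩ := (Submodule.ne_bot_iff _).mp hN₁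
  refine ⟨x, hx0, fun t ht => ?_⟩
  by_contra htx
  -- `t` acts surjectively on `N₁`
  have h1 : N₁.map (f t) ≤ N₁ := by
    rintro _ ⟨y, hy, rfl⟩
    exact N₁.smul_mem t hy
  have h2 : N₁.map (f t) = N₁ := by
    by_contra hne
    refine hmin₁ _ ⟨fun hb => htx ?_, h1.trans hle⟩ (lt_of_le_of_ne h1 hne)
    have h3 : f t x ∈ N₁.map (f t) := ⟨x, hx, rfl⟩
    rw [hb, Submodule.mem_bot] at h3
    exact h3
  let g : N₁ → N₁ := fun y => ⟨t • (y : M), N₁.smul_mem t y.2⟩
  have hsurj : Function.Surjective g := by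
    rintro ⟨y, hy⟩
    rw [← h2] at hy
    obtain ⟨z, hz, hzy⟩ := hy
    exact ⟨⟨z, hz⟩, Subtype.ext hzy⟩
  have hgb : Function.Bijective g := Finite.surjective_iff_bijective.mp hsurj
  let E : Equiv.Perm N₁ := Equiv.ofBijective g hgb
  have hE : ∀ (n : ℕ) (y : N₁), (((E ^ n) y : N₁) : M) = t ^ n • (y : M) := by
    intro n
    induction n with
    | zero => intro y; rw [pow_zero, pow_zero, one_smul]; rfl
    | succ n ih =>
      intro y
      rw [pow_succ', pow_succ', Equiv.Perm.mul_apply, mul_smul, ← ih]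
      rfl
  have hn0 := (orderOf_pos E).ne'
  have h4 := hE (orderOf E) ⟨x, hx⟩
  rw [pow_orderOf_eq_one] at h4
  have h5 : (1 - t ^ orderOf E) • x = 0 := by
    rw [sub_smul, one_smul, sub_eq_zero]
    exact h4
  refine hx0 (hbij (1 - t ^ orderOf E) ?_ x (hle hx) h5)
  rw [map_sub, map_one, map_pow, ht, zero_pow hn0, sub_zero]
  exact one_ne_zero

end Abstract

variable {N p : ℕ} [NeZero N] {S : Finset ℕ}
  {J : Type} [AddCommGroup J] [Module HeckeAlg J] [DistribMulAction GQ J]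
  [SMulCommClass GQ HeckeAlg J]
  {k : Type} [Field k]

/-- **`J[𝔪] ≠ 0`.** -/
theorem exists_mem_mTors_ne_zero [CharP k p] (hJ : ESInput N p (↑S : Set ℕ) J)
    (hfin : ∀ m : ℕ, {x : J | p ^ m • x = 0}.Finite)
    (π : heckeAlgebra N 2 (↑S : Set ℕ) →+* k) : ∃ x ∈ mTors J (psi π), x ≠ 0 := by
  obtain ⟨m, hm⟩ := hJ.faithful 1
  let A := HeckeAlgS (↑S : Set ℕ)
  letI : Module A J := Module.compHom J (inclS (↑S : Set ℕ)).toRingHom
  have hA : ∀ (t : A) (x : J), t • x = inclS (↑S : Set ℕ) t • x := fun _ _ => rfl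
  let M : Submodule A J := Submodule.torsionBy A J ((p ^ m : ℕ) : A)
  have hM : ∀ x : J, x ∈ M ↔ p ^ m • x = 0 := by
    intro x
    rw [Submodule.mem_torsionBy_iff, Nat.cast_smul_eq_nsmul]
  haveI : Finite M := by
    refine ((hfin m).subset fun x hx => ?_).to_subtype
    exact (hM x).mp hx
  obtain ⟨x, hx0, hx⟩ := exists_killed (A := A) (M := M) (psi π) (fun s hs => by
    by_contra hcon
    push Not at hcon
    apply hs
    have h1 := hm s (fun x hx => by
      have h2 := hcon ⟨x, (hM x).mpr hx⟩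
      exact congrArg Subtype.val h2)
    rw [pow_one, Ideal.mem_span_singleton] at h1
    obtain ⟨c, hc⟩ := h1
    rw [psi_apply, hc, map_mul, map_natCast, CharP.cast_eq_zero, zero_mul])
  exact ⟨x, fun t ht => congrArg Subtype.val (hx t ht), fun h => hx0 (Subtype.ext h)⟩

end Fermat.Agent.LRp

end
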