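import Fermat.Agent.LRp.System
import Fermat.Agent.LRp.KZero
import Fermat.Agent.LRp.Inst
import Fermat.Agent.LRp.TorsNe
import Fermat.Agent.HSide.NewP
import Fermat.Agent.HSide.IharaN
import Fermat.Agent.HSide.RelMM

/-!
# The `p`-new kernel at the bottom level is not zero
-/

set_option autoImplicit false
set_option linter.style.haveILetI false

noncomputable section

open CuspForm ModularCurve IsLocalRing
open scoped MatrixGroups

namespace Fermat.Agent.LRp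

open Fermat.Agent.GalRep Fermat.Agent.TwExact Fermat.Agent.TwHecke Fermat.Agent.HeckeRep
  Fermat.Agent.HSide Fermat.Agent.RTE Fermat.Agent.RTD Fermat.Agent.Patch

variable {𝒪 : Type} [CommRing 𝒪] [IsDomain 𝒪] [IsDiscreteValuationRing 𝒪]
  [IsAdicComplete (maximalIdeal 𝒪) 𝒪] [Finite (ResidueField 𝒪)] [CharZero 𝒪]
  {p : ℕ} [hp : Fact p.Prime] {ι : Type} {qT : ι → ℕ} {S : Finset ℕ} (B : Base 𝒪 p qT S)

theorem evk_map_int' {R : Type} [CommRing R] [IsLocalRing R] {S : Set ℕ}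
    (θ : PIdx S → ResidueField R) (t : MvPolynomial (PIdx S) ℤ) :
    evk θ (MvPolynomial.map (Int.castRingHom R) t) = MvPolynomial.aeval (R := ℤ) θ t := by
  induction t using MvPolynomial.induction_on with
  | C n =>
    rw [MvPolynomial.map_C, evk_C, MvPolynomial.aeval_C, eq_intCast, map_intCast]
    exact (eq_intCast (algebraMap ℤ (ResidueField R)) n).symm
  | add p q hp hq => rw [map_add, map_add, hp, hq, map_add]
  | mul_X p i hp =>
    rw [map_mul, map_mul, hp, MvPolynomial.map_X, evk_X, map_mul, MvPolynomial.aeval_X]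

/-- If the bottom module is not zero then the system occurs at its level. -/
theorem occ_of_nontrivial_M0 (s : Finset ι) (hnt : Nontrivial (B.M0 s)) :
    Occ (B.NS s) (↑S : Set ℕ) (thOf B.a (↑S : Set ℕ)) := by
  intro t ht
  by_contra hne
  have hη : ∀ u : (ZMod (B.NS s))ˣ,
      residue 𝒪 (((1 : (ZMod (B.NS s))ˣ →* 𝒪ˣ) u : 𝒪ˣ) : 𝒪) = 1 := fun u => by
    rw [MonoidHom.one_apply, Units.val_one, map_one]
  have hrel := B.cev_M0_eq_zero s (hT_commute _ _ _) t ht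
  have hloc := isLocalAt_hT (M := B.NS s) (S := (↑S : Set ℕ))
    (ε := (1 : (ZMod (B.NS s))ˣ →* 𝒪ˣ) ^ 2) (θ := thOf B.a (↑S : Set ℕ)) hη
    (MvPolynomial.map (Int.castRingHom 𝒪) t) (by rw [evk_map_int']; exact hne)
  obtain ⟨x, hx⟩ := exists_ne (0 : B.M0 s)
  apply hx
  apply hloc.1
  rw [map_zero, ← cevZ_eq, hrel, LinearMap.zero_apply]

variable (hqp : ∀ v, qT v ≠ p) (hpN : ¬ p ∣ B.N)

/-- **The `p`-new kernel of the bottom module is not zero**, if the residual representation is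
strictly ordinary at `p`. -/
theorem exists_new_base (s : Finset ι) (hnt : Nontrivial ((B.mulP hqp).M0 s))
    {ρ : GaloisRepAdic (ResidueField 𝒪)}
    (hfrob : ∀ h : Occ (B.NS s) (↑S : Set ℕ) (thOf B.a (↑S : Set ℕ)),
      HasFrobCharpoly (sysHom h) ρ)
    (habs : ρ.residual.IsAbsolutelyIrreducible) (hdet : ρ.DetIsCyclotomic p)
    (hstr : ρ.IsStrictOrdinaryAt p) :
    ∃ z : (B.mulP hqp).M0 s, z ≠ 0 ∧ B.b1 hqp hpN s z = 0 ∧ B.b2 hqp hpN s z = 0 := by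
  by_contra hcon
  push Not at hcon
  have hchar := B.charP_res
  have hpS : p ∈ (↑S : Set ℕ) := B.pS
  have hNZp : NeZero p := ⟨hp.out.ne_zero⟩
  -- the module of level `N` is not zero
  have hnt0 : Nontrivial (B.M0 s) := by
    by_contra h0
    rw [not_nontrivial_iff_subsingleton] at h0
    obtain ⟨z, hz⟩ := exists_ne (0 : (B.mulP hqp).M0 s)
    exact hcon z hz (Subsingleton.elim _ _) (Subsingleton.elim _ _)
  have hK : newKer (B.b1 hqp hpN s) (B.b2 hqp hpN s) = ⊥ := by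
    rw [eq_bot_iff]
    intro z hz
    rw [mem_newKer] at hz
    rw [Submodule.mem_bot]
    by_contra hz0
    exact hcon z hz0 hz.1 hz.2
  have hocc := occ_of_nontrivial_M0 B s hnt0
  -- a fixed vector
  letI := heckeModuleBar (B.NS s)
  haveI := Cofaith.smulCommClass_JZero (B.NS s)
  obtain ⟨A, hA⟩ := Frob.exists_liesOverPrime p hp.out
  obtain ⟨b, hI, hz⟩ := exists_basis_of_strict hp.out hdet hstr hA
  have hpM : ¬ p ∣ B.NS s := B.p_not_dvd_NS hqp hpN s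
  obtain ⟨x, hx, hx0, hxT⟩ := exists_fixed_JZero hp.out hpM B.p_ne_two B.pS (B.NS_mem s)
    (hfrob hocc) habs hdet hA hI hz
    (exists_mem_mTors_ne_zero (SO.esInput hp.out _ (B.NS s)
      fun q h1 h2 => by simpa using B.NS_mem s q h1 h2)
      (fun m => Cofaith.finite_torsion_set (B.NS s) (pow_ne_zero m hp.out.ne_zero)) (sysHom hocc))
  obtain ⟨ϖ, hϖ⟩ := IsDiscreteValuationRing.exists_irreducible 𝒪
  have hϖ' : maximalIdeal 𝒪 = Ideal.span {ϖ} := (IsDiscreteValuationRing.irreducible_iff_uniformizer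
    ϖ).mp hϖ
  have hcomm := Fermat.Agent.HeckeComm.heckeOperatorsCommuteBar (B.NS s)
  have h5 : ∀ y : JZero (B.NS s), (MvPolynomial.X (⟨p, hp.out⟩ : Nat.Primes) : HeckeAlg) • y =
      heckeOperatorBar (B.NS s) (⟨p, hp.out⟩ : Nat.Primes) y := fun y =>
    heckeModuleBar_heckeGen_smul hcomm (⟨p, hp.out⟩ : Nat.Primes) y
  obtain ⟨z, hz, hz0, y, hy, hzy⟩ := exists_class (𝒪 := 𝒪) hp.out hpM (B.NS_mem s) B.pS
    (ψ := psi (sysHom hocc)) (θ := thOf B.a (↑S : Set ℕ)) (fun ℓ => by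
      rw [psi_apply, sysHom_evS, MvPolynomial.aeval_X]) hx hx0 (by rw [h5, h5]; exact hxT)
    (ε := (1 : (ZMod (B.NS s))ˣ →* 𝒪ˣ) ^ 2) one_sq_eq hϖ'
  -- the contradiction
  have hv : ϖ ∣ (p : 𝒪) := by
    rw [← Ideal.mem_span_singleton, ← hϖ']
    exact B.p_mem
  have hres : ∀ u : (ZMod (B.NS s))ˣ,
      residue 𝒪 (((1 : (ZMod (B.NS s))ˣ →* 𝒪ˣ) u : 𝒪ˣ) : 𝒪) = 1 := fun u => by
    rw [MonoidHom.one_apply, Units.val_one, map_one]
  have hTT : tvm (B.NS s) p 1 (1 ^ 2) (↑S : Set ℕ) (thOf B.a (↑S : Set ℕ))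
      (tvm (B.NS s) p 1 (1 ^ 2) (↑S : Set ℕ) (thOf B.a (↑S : Set ℕ)) (⟨z, hz⟩ : B.M0 s)) =
      (⟨z, hz⟩ : B.M0 s) + ϖ • (⟨y, hy⟩ : B.M0 s) := by
    apply Subtype.ext
    rw [coe_tvm, coe_tvm, MonoidHom.one_apply, Units.val_one, one_smul, one_smul]
    exact (eq_add_of_sub_eq' hzy)
  obtain ⟨z', hz'⟩ := dvd_of_newKer_eq_bot (v := (p : 𝒪)) (ϖ := ϖ)
    (j1 := B.b1 hqp hpN s) (j2 := B.b2 hqp hpN s)
    (i1 := HSide.i1 (η := 1) (η' := 1) hp.out (B.NS_mulP hqp s) rfl _ B.pS)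
    (i2 := HSide.i2 (η := 1) (η' := 1) hp.out (B.NS_mulP hqp s) rfl _ B.pS)
    (T := tvm (B.NS s) p 1 (1 ^ 2) (↑S : Set ℕ) (thOf B.a (↑S : Set ℕ))) hv
    (fun x => j1_i1 (η := 1) (η' := 1) hp.out (B.p_not_dvd_NS hqp hpN s) (B.NS_mulP hqp s) rfl _
      B.pS x)
    (fun x => j1_i2 (η := 1) (η' := 1) hp.out (B.p_not_dvd_NS hqp hpN s) (B.NS_mulP hqp s) rfl _
      B.pS x)
    (fun x => j2_i1 (η := 1) (η' := 1) hp.out (B.p_not_dvd_NS hqp hpN s) (B.NS_mulP hqp s) rfl _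
      B.pS x)
    (fun x => j2_i2 (η := 1) (η' := 1) hp.out (B.p_not_dvd_NS hqp hpN s) (B.NS_mulP hqp s) rfl _
      B.pS x)
    (fun x y => surj_j (η := 1) (η' := 1) hp.out (B.p_not_dvd_NS hqp hpN s) (B.NS_mulP hqp s)
      hp.out B.p_ne_two rfl B.pS hres (B.ne S subset_rfl) (B.good_M0 s) x y)
    (fun x y z e => ihara_i (η := 1) (η' := 1) hp.out (B.p_not_dvd_NS hqp hpN s)
      (B.NS_mulP hqp s) hp.out B.p_ne_two rfl B.pS hres (B.ne S subset_rfl) (B.good_M0 s)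
      ((B.mulP hqp).NS_mem s) ϖ x y z e) hK hTT
  exact hz0 z' z'.2 (congrArg Subtype.val hz')

end Fermat.Agent.LRp

end
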