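import Fermat.Agent.S33.Approx

/-!
# Relations on the residual representation hold on the `𝔪`-torsion of `J`
-/

set_option autoImplicit false

noncomputable section

open CuspForm ModularCurve Polynomial Fermat.Agent.GalRep Fermat.Agent.S33aux

namespace Fermat.Agent.LRp

section Star

variable {P E G : Type*} [CommRing P] [Ring E] [Algebra P E] [Group G]

/-- The star argument in the other direction. -/
theorem star_rev (a : G →* E) (s : G → E) (t : G → P) (hs1 : s 1 = 1)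
    (hs : ∀ g h, s (g * h) = s h * s g)
    (hat : ∀ g, a g + s g = algebraMap P E (t g))
    {ι : Type*} (I : Finset ι) (c : ι → ℤ) (g : ι → G)
    (h0 : ∀ h, algebraMap P E (∑ i ∈ I, c i • t (g i * h)) = 0) (g₀ g₁ g₂ : G) :
    algebraMap P E (t (g₀ * (g₁ * g₂)) - t (g₀ * (g₂ * g₁))) * ∑ i ∈ I, c i • a (g i) = 0 := by
  obtain ⟨Y, hY⟩ : ∃ Y : E, Y = ∑ i ∈ I, c i • a (g i) := ⟨_, rfl⟩
  obtain ⟨Z, hZ⟩ : ∃ Z : E, Z = ∑ i ∈ I, c i • s (g i) := ⟨_, rfl⟩
  have h1 : ∀ h, Y * a h + s h * Z = 0 := by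
    intro h
    rw [← h0 h, hY, hZ, Finset.sum_mul, Finset.mul_sum, ← Finset.sum_add_distrib, map_sum]
    refine Finset.sum_congr rfl fun i _ => ?_
    rw [map_zsmul, ← hat, map_mul, hs, smul_mul_assoc, mul_smul_comm, smul_add]
  have h2 : Z = -Y := by
    have := h1 1
    rw [map_one, mul_one, hs1, one_mul] at this
    exact (neg_eq_of_add_eq_zero_right this).symm
  have h3 : ∀ h, Y * a h = s h * Y := by
    intro h
    have := h1 h
    rw [h2, mul_neg, add_neg_eq_zero] at this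
    exact this
  have h4 : ∀ x y, s x * s y * Y = s y * s x * Y := by
    intro x y
    have e1 : Y * (a x * a y) = s x * s y * Y := by
      rw [← mul_assoc, h3, mul_assoc, h3, mul_assoc]
    have e2 : Y * (a x * a y) = s y * s x * Y := by
      rw [← map_mul, h3, hs]
    rw [← e1, e2]
  have hacomm : a g₁ * a g₂ - a g₂ * a g₁ = s g₁ * s g₂ - s g₂ * s g₁ := by
    have e1 : a g₁ = algebraMap P E (t g₁) - s g₁ := by rw [← hat]; abel
    have e2 : a g₂ = algebraMap P E (t g₂) - s g₂ := by rw [← hat]; abel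
    rw [e1, e2, sub_mul, sub_mul, mul_sub, mul_sub, mul_sub, mul_sub,
      Algebra.commutes (t g₁) (s g₂), Algebra.commutes (t g₂) (s g₁), ← map_mul, ← map_mul,
      mul_comm (t g₁) (t g₂)]
    abel
  rw [← hY, map_sub, ← hat, ← hat, map_mul, map_mul, map_mul, map_mul, hs g₀, hs g₀, hs g₁,
    hs g₂]
  have e1 : (a g₀ * (a g₁ * a g₂) + s g₂ * s g₁ * s g₀ -
      (a g₀ * (a g₂ * a g₁) + s g₁ * s g₂ * s g₀)) * Y =
      a g₀ * ((a g₁ * a g₂ - a g₂ * a g₁) * Y) +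
        (s g₂ * s g₁ * (s g₀ * Y) - s g₁ * s g₂ * (s g₀ * Y)) := by
    noncomm_ring
  rw [e1, hacomm, sub_mul, h4 g₁ g₂, sub_self, mul_zero, zero_add, ← h3, ← mul_assoc,
    ← mul_assoc, h4 g₂ g₁, sub_self]

end Star

section Kill

variable {N p : ℕ} [NeZero N] {S : Finset ℕ}
  {J : Type*} [AddCommGroup J] [Module HeckeAlg J] [DistribMulAction GQ J]
  [SMulCommClass GQ HeckeAlg J]
  {k : Type} [Field k] [Finite k]

omit [NeZero N] [DistribMulAction GQ J] [SMulCommClass GQ HeckeAlg J] in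
/-- An operator which is a unit modulo `𝔪` is injective on the `𝔪`-torsion. -/
theorem eq_zero_of_smul {ψ : HeckeAlgS (↑S : Set ℕ) →+* k} {x : J}
    (hX : ∀ t, ψ t = 0 → inclS (↑S : Set ℕ) t • x = 0) {t : HeckeAlgS (↑S : Set ℕ)}
    (ht : ψ t ≠ 0) (h : inclS (↑S : Set ℕ) t • x = 0) : x = 0 := by
  have := Fintype.ofFinite k
  have h1 : ψ (t ^ (Fintype.card k - 1) - 1) = 0 := by
    rw [map_sub, map_pow, map_one, FiniteField.pow_card_sub_one_eq_one _ ht, sub_self]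
  have h2 := hX _ h1
  have h3 : Fintype.card k - 1 = (Fintype.card k - 2) + 1 := by
    have := Fintype.one_lt_card (α := k)
    omega
  rw [h3, pow_succ, map_sub, map_mul, map_one, sub_smul, mul_smul, h, smul_zero, one_smul,
    zero_sub, neg_eq_zero] at h2
  exact h2

/-- **A relation which holds on `ρ` holds on `J[𝔪]`.** -/
theorem kill_of_kill (hJ : ESInput N p (↑S : Set ℕ) J) (hp : p.Prime)
    (hpS : p ∈ S) (hNS : ∀ q : ℕ, q.Prime → q ∣ N → q ∈ S)
    {π : heckeAlgebra N 2 (↑S : Set ℕ) →+* k} {ρ : GaloisRepAdic k}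
    (hfrob : HasFrobCharpoly π ρ) (habs : ρ.residual.IsAbsolutelyIrreducible) {m : ℕ}
    (X : AddSubgroup J) (hG : ∀ g : GQ, ∀ x ∈ X, g • x ∈ X)
    (hH : ∀ t : HeckeAlgS (↑S : Set ℕ), ∀ x ∈ X, inclS (↑S : Set ℕ) t • x ∈ X)
    (hXp : ∀ x ∈ X, p ^ m • x = 0)
    (hX : ∀ t : HeckeAlgS (↑S : Set ℕ), π (evS N (↑S : Set ℕ) t) = 0 →
      ∀ x ∈ X, inclS (↑S : Set ℕ) t • x = 0)
    {ι : Type*} (I : Finset ι) (c : ι → ℤ) (g : ι → GQ)
    (h0 : ∀ v : ρ.V, ∑ i ∈ I, c i • ρ.ρ (g i) v = 0) {x : J} (hx : x ∈ X) :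
    ∑ i ∈ I, c i • (g i • x) = 0 := by
  classical
  obtain ⟨g₀, g₁, g₂, hu⟩ := exists_isUnit_trace_commutator ρ habs
  have : NeZero (p ^ m) := ⟨pow_ne_zero _ hp.ne_zero⟩
  obtain ⟨ζ, hζ⟩ := HasEnoughRootsOfUnity.exists_primitiveRoot (AlgebraicClosure ℚ) (p ^ m)
  obtain ⟨t, ht, ht'⟩ := exists_heckeApprox' hJ hp hpS hNS hfrob m 1 hζ
  have htr : ∀ g : GQ, LinearMap.trace k ρ.V (ρ.ρ g) = π (evS N (↑S : Set ℕ) (t g)) := by
    intro g
    have := ht' g
    rw [pow_one, IsLocalRing.maximalIdeal_eq_bot, Ideal.mem_bot, sub_eq_zero] at this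
    exact this
  letI : Module (HeckeAlgS (↑S : Set ℕ)) X := heckeModuleS (↑S : Set ℕ) X hH
  have hsm : ∀ (t : HeckeAlgS (↑S : Set ℕ)) (x : X),
      ((t • x : X) : J) = inclS (↑S : Set ℕ) t • (x : J) := fun _ _ => rfl
  let a : GQ →* Module.End (HeckeAlgS (↑S : Set ℕ)) X :=
    { toFun := fun g =>
        { toFun := fun x => ⟨g • (x : J), hG g x x.2⟩
          map_add' := fun x y => Subtype.ext (smul_add g (x : J) (y : J))
          map_smul' := fun r x => Subtype.ext (smul_comm g (inclS (↑S : Set ℕ) r) (x : J)) }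
      map_one' := LinearMap.ext fun x => Subtype.ext (one_smul GQ (x : J))
      map_mul' := fun g h => LinearMap.ext fun x => Subtype.ext (mul_smul g h (x : J)) }
  have hac : ∀ (g : GQ) (x : X), ((a g x : X) : J) = g • (x : J) := fun _ _ => rfl
  set s : GQ → Module.End (HeckeAlgS (↑S : Set ℕ)) X := fun h =>
    algebraMap (HeckeAlgS (↑S : Set ℕ)) (Module.End (HeckeAlgS (↑S : Set ℕ)) X)
      (cycExp p hp m hζ h : HeckeAlgS (↑S : Set ℕ)) * a h⁻¹ with hs
  have hcast : ∀ (n : ℕ) (x : X), ((n : HeckeAlgS (↑S : Set ℕ)) • x) = n • x :=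
    fun n x => Nat.cast_smul_eq_nsmul _ _ _
  have hscal : ∀ {a b : ℕ}, ((a : ℕ) : ZMod (p ^ m)) = b →
      algebraMap (HeckeAlgS (↑S : Set ℕ)) (Module.End (HeckeAlgS (↑S : Set ℕ)) X)
        (a : HeckeAlgS (↑S : Set ℕ)) =
        algebraMap (HeckeAlgS (↑S : Set ℕ)) (Module.End (HeckeAlgS (↑S : Set ℕ)) X)
          (b : HeckeAlgS (↑S : Set ℕ)) := by
    intro a b hab
    refine LinearMap.ext fun x => Subtype.ext ?_
    rw [Module.algebraMap_end_apply, Module.algebraMap_end_apply, hcast, hcast]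
    have h1 : ((p ^ m : ℕ) : ℤ) ∣ (a : ℤ) - (b : ℤ) := by
      rw [← ZMod.intCast_zmod_eq_zero_iff_dvd]
      push_cast
      exact sub_eq_zero.mpr hab
    obtain ⟨e, he⟩ := h1
    have h2 : (a : ℤ) • (x : J) - (b : ℤ) • (x : J) = 0 := by
      rw [← sub_smul, he, mul_comm, mul_smul, natCast_zsmul, hXp _ x.2, smul_zero]
    rw [natCast_zsmul, natCast_zsmul] at h2
    exact sub_eq_zero.mp h2
  have hs1 : s 1 = 1 := by
    have h1 : ((cycExp p hp m hζ 1 : ℕ) : ZMod (p ^ m)) = ((1 : ℕ) : ZMod (p ^ m)) := by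
      refine natCast_eq_of_pow_eq p hp m hζ ?_
      rw [← cycExp_spec p hp m hζ 1, pow_one, AlgEquiv.one_apply]
    simp only [hs]
    rw [hscal h1, inv_one, map_one, Nat.cast_one, map_one, one_mul]
  have hsmul : ∀ g h, s (g * h) = s h * s g := by
    intro g h
    have h1 := hscal (cycExp_mul p hp m hζ g h)
    rw [Nat.cast_mul, map_mul] at h1
    simp only [hs]
    rw [h1, mul_inv_rev, map_mul]
    rw [mul_assoc, mul_assoc, ← mul_assoc (a h⁻¹), ← Algebra.commutes _ (a h⁻¹), mul_assoc]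
  have hat : ∀ h, a h + s h = algebraMap (HeckeAlgS (↑S : Set ℕ))
      (Module.End (HeckeAlgS (↑S : Set ℕ)) X) (t h) := by
    intro h
    refine LinearMap.ext fun x => Subtype.ext ?_
    have e := ht h x (hXp _ x.2)
    have e1 : (s h x : X) = (cycExp p hp m hζ h : HeckeAlgS (↑S : Set ℕ)) • (a h⁻¹ x) := rfl
    rw [LinearMap.add_apply, e1, hcast, AddSubgroup.coe_add, AddSubgroup.coe_nsmul, hac, hac,
      Module.algebraMap_end_apply, hsm, e]
  have hvan : ∀ h, algebraMap (HeckeAlgS (↑S : Set ℕ)) (Module.End (HeckeAlgS (↑S : Set ℕ)) X)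
      (∑ i ∈ I, c i • t (g i * h)) = 0 := by
    intro h
    have h1 : π (evS N (↑S : Set ℕ) (∑ i ∈ I, c i • t (g i * h))) = 0 := by
      have h2 : (∑ i ∈ I, c i • ρ.ρ (g i)) * ρ.ρ h = 0 := by
        refine LinearMap.ext fun v => ?_
        have h3 := h0 (ρ.ρ h v)
        rw [Module.End.mul_apply, LinearMap.sum_apply, LinearMap.zero_apply]
        exact h3
      have h4 := congrArg (LinearMap.trace k ρ.V) h2
      rw [Finset.sum_mul, map_sum, map_zero] at h4
      rw [map_sum, map_sum, ← h4]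
      refine Finset.sum_congr rfl fun i _ => ?_
      rw [map_zsmul, map_zsmul, ← htr, smul_mul_assoc, map_zsmul, map_mul]
    refine LinearMap.ext fun x => Subtype.ext ?_
    rw [Module.algebraMap_end_apply, hsm]
    exact hX _ h1 x x.2
  have hkey := star_rev a s t hs1 hsmul hat I c g hvan g₀ g₁ g₂
  have hτ : π (evS N (↑S : Set ℕ) (t (g₀ * (g₁ * g₂)) - t (g₀ * (g₂ * g₁)))) ≠ 0 := by
    rw [map_sub, map_sub, ← htr, ← htr]
    exact hu.ne_zero
  have h5 := congrArg (fun f : Module.End (HeckeAlgS (↑S : Set ℕ)) X =>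
    ((f (⟨x, hx⟩ : X) : X) : J)) hkey
  have h6 : (((∑ i ∈ I, c i • a (g i) : Module.End (HeckeAlgS (↑S : Set ℕ)) X)
      (⟨x, hx⟩ : X) : X) : J) = ∑ i ∈ I, c i • (g i • x) := by
    rw [LinearMap.sum_apply, ← AddSubgroup.subtype_apply, map_sum]
    refine Finset.sum_congr rfl fun i _ => ?_
    rw [LinearMap.smul_apply, map_zsmul, AddSubgroup.subtype_apply, hac]
  have h7 : inclS (↑S : Set ℕ) (t (g₀ * (g₁ * g₂)) - t (g₀ * (g₂ * g₁))) •
      (∑ i ∈ I, c i • (g i • x)) = 0 := by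
    rw [← h6]
    exact h5
  have h8 : ∑ i ∈ I, c i • (g i • x) ∈ X :=
    X.sum_mem fun i _ => X.zsmul_mem (hG _ _ hx) _
  exact eq_zero_of_smul (ψ := π.comp (evS N (↑S : Set ℕ)).toRingHom)
    (fun t ht => hX t ht _ h8) hτ h7

end Kill

end Fermat.Agent.LRp

end
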