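import Fermat.Agent.LRp.Formal
import Fermat.Agent.S44w.Old
import Fermat.Agent.S59.NonTriv
import Fermat.Agent.HeckeRep.Act
import Fermat.Agent.S41.HmEig

/-!
# The eigenvalue of `T_p`: the residual system extended to `p`
-/

set_option autoImplicit false
set_option linter.unusedSectionVars false
set_option linter.style.haveILetI false

noncomputable section

open CuspForm ModularCurve IsLocalRing Fermat.Agent.GalRep Fermat.Agent.TwExact
  Fermat.Agent.TwHecke Fermat.Agent.HeckeRep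

namespace Fermat.Agent.LRp

section Subst

variable {S S' : Set ℕ} {k : Type*} [CommRing k]

open Classical in
/-- `X_ℓ ↦ X_ℓ` for `ℓ ∉ S`, `X_ℓ ↦ ε` otherwise. -/
def substE (S S' : Set ℕ) (ε : ℤ) : HeckeAlgS S' →ₐ[ℤ] HeckeAlgS S :=
  MvPolynomial.aeval fun ℓ : {ℓ : Nat.Primes // (ℓ : ℕ) ∉ S'} =>
    if h : (ℓ.1 : ℕ) ∈ S then MvPolynomial.C ε else MvPolynomial.X ⟨ℓ.1, h⟩

open Classical in
/-- The system `θ` extended by `ε`. -/
def thE (S S' : Set ℕ) (θ : PIdx S → k) (ε : ℤ) : PIdx S' → k := fun ℓ =>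
  if h : (ℓ.1 : ℕ) ∈ S then (ε : k) else θ ⟨ℓ.1, h⟩

theorem thE_incl (h : S' ⊆ S) (θ : PIdx S → k) (ε : ℤ) (ℓ : PIdx S) :
    thE S S' θ ε (inclIdx h ℓ) = θ ℓ := by
  rw [thE, dif_neg (show ¬ ((inclIdx h ℓ).1 : ℕ) ∈ S from ℓ.2)]
  rfl

theorem thE_of_mem (θ : PIdx S → k) (ε : ℤ) (ℓ : PIdx S') (h : (ℓ.1 : ℕ) ∈ S) :
    thE S S' θ ε ℓ = (ε : k) := by
  rw [thE, dif_pos h]

theorem psi_substE (ψ : HeckeAlgS S →+* k) {θ : PIdx S → k}
    (hψ : ∀ ℓ, ψ (MvPolynomial.X ℓ) = θ ℓ) (ε : ℤ) (t : HeckeAlgS S') :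
    ψ (substE S S' ε t) = MvPolynomial.eval₂ (Int.castRingHom k) (thE S S' θ ε) t := by
  induction t using MvPolynomial.induction_on with
  | C a =>
    rw [MvPolynomial.eval₂_C, substE, MvPolynomial.aeval_C]
    simp
  | add s t hs ht => rw [map_add, map_add, hs, ht, MvPolynomial.eval₂_add]
  | mul_X s ℓ hs =>
    rw [map_mul, map_mul, hs, MvPolynomial.eval₂_mul, MvPolynomial.eval₂_X]
    congr 1
    rw [substE, MvPolynomial.aeval_X, thE]
    by_cases h : (ℓ.1 : ℕ) ∈ S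
    · rw [dif_pos h, dif_pos h]
      simp
    · rw [dif_neg h, dif_neg h, hψ]

variable {J : Type*} [AddCommGroup J] [Module HeckeAlg J]

theorem inclS_X_smul (S : Set ℕ) (ℓ : {ℓ : Nat.Primes // (ℓ : ℕ) ∉ S}) (y : J) :
    inclS S (MvPolynomial.X ℓ) • y = (MvPolynomial.X ℓ.1 : HeckeAlg) • y := by
  rw [inclS, MvPolynomial.rename_X]

theorem inclS_C_smul (S : Set ℕ) (a : ℤ) (y : J) :
    inclS S (MvPolynomial.C a) • y = a • y := by
  rw [inclS, MvPolynomial.rename_C]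
  have h : (MvPolynomial.C a : HeckeAlg) = ((a : ℤ) : HeckeAlg) :=
    eq_intCast (MvPolynomial.C (R := ℤ) (σ := Nat.Primes)) a
  rw [h, Int.cast_smul_eq_zsmul]

/-- On a `T_p = ε` eigenvector the polynomials may be evaluated at `T_p = ε`. -/
theorem inclS_substE {p : Nat.Primes} (hS : ∀ ℓ : ℕ, ℓ ∈ S → ℓ ∉ S' → ℓ = p) (ε : ℤ)
    (t : HeckeAlgS S') : ∀ y : J, (MvPolynomial.X p : HeckeAlg) • y = ε • y →
      inclS S' t • y = inclS S (substE S S' ε t) • y := by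
  induction t using MvPolynomial.induction_on with
  | C a =>
    intro y _
    rw [inclS_C_smul, substE, MvPolynomial.aeval_C]
    have h : (algebraMap ℤ (HeckeAlgS S)) a = MvPolynomial.C a := rfl
    rw [h, inclS_C_smul]
  | add s t hs ht =>
    intro y hy
    rw [map_add, map_add, map_add, add_smul, add_smul, hs y hy, ht y hy]
  | mul_X s ℓ hs =>
    intro y hy
    rw [map_mul, mul_smul, inclS_X_smul, map_mul, map_mul, mul_smul]
    by_cases h : (ℓ.1 : ℕ) ∈ S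
    · have h1 : ℓ.1 = p := Subtype.ext (hS _ h ℓ.2)
      have h2 : substE S S' ε (MvPolynomial.X ℓ) = MvPolynomial.C ε := by
        rw [substE, MvPolynomial.aeval_X, dif_pos h]
      rw [h2, inclS_C_smul, h1, hy]
      refine hs _ ?_
      rw [smul_comm, hy]
    · have h2 : substE S S' ε (MvPolynomial.X ℓ) = MvPolynomial.X ⟨ℓ.1, h⟩ := by
        rw [substE, MvPolynomial.aeval_X, dif_neg h]
      rw [h2, inclS_X_smul]
      refine hs _ ?_
      rw [smul_smul, mul_comm, mul_smul, hy, smul_comm]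

end Subst

section System

variable {N p : ℕ} [NeZero N] {S : Finset ℕ} {k : Type} [Field k] [Finite k]

/-- **The system extended to `p` occurs.** -/
theorem exists_system [CharP k p] (hp : p.Prime) (hpN : ¬ p ∣ N)
    (hNS : ∀ q : ℕ, q.Prime → q ∣ N → q ∈ S)
    {ψ : HeckeAlgS (↑S : Set ℕ) →+* k} {θ : PIdx (↑S : Set ℕ) → k}
    (hψ : ∀ ℓ, ψ (MvPolynomial.X ℓ) = θ ℓ) {x : JZero N}
    (hx : letI := heckeModuleBar N; x ∈ mTors (JZero N) ψ) (hx0 : x ≠ 0)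
    (hT : letI := heckeModuleBar N;
      (MvPolynomial.X ⟨p, hp⟩ : HeckeAlg) • (MvPolynomial.X ⟨p, hp⟩ : HeckeAlg) • x = x) :
    ∃ ε : ℤ, ε * ε = 1 ∧ ∀ t : HeckeAlgS (↑(S.erase p) : Set ℕ),
      evS N (↑(S.erase p) : Set ℕ) t = 0 →
        MvPolynomial.eval₂ (Int.castRingHom k) (thE (↑S : Set ℕ) _ θ ε) t = 0 := by
  letI := heckeModuleBar N
  -- an eigenvector
  obtain ⟨ε, hε, y, hy, hy0, hTy⟩ : ∃ ε : ℤ, ε * ε = 1 ∧ ∃ y : JZero N, y ∈ mTors (JZero N) ψ ∧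
      y ≠ 0 ∧ (MvPolynomial.X ⟨p, hp⟩ : HeckeAlg) • y = ε • y := by
    by_cases h : (MvPolynomial.X ⟨p, hp⟩ : HeckeAlg) • x = -x
    · exact ⟨-1, by norm_num, x, hx, hx0, by rw [h, neg_zsmul, one_zsmul]⟩
    · refine ⟨1, by norm_num, (MvPolynomial.X ⟨p, hp⟩ : HeckeAlg) • x + x, ?_, ?_, ?_⟩
      · refine (mTors (JZero N) ψ).add_mem ?_ hx
        intro t ht
        rw [smul_comm, hx t ht, smul_zero]
      · intro h0
        exact h (eq_neg_of_add_eq_zero_left h0)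
      · rw [smul_add, hT, one_zsmul, add_comm]
  refine ⟨ε, hε, fun t ht => ?_⟩
  rw [← psi_substE ψ hψ]
  by_contra hne
  apply hy0
  refine eq_zero_of_smul (ψ := ψ) (fun t ht => hy t ht) hne ?_
  rw [← inclS_substE (p := ⟨p, hp⟩) (fun ℓ h1 h2 => ?_) ε t y hTy]
  · refine S44w.inclS_smul_eq_zero N _ (fun ℓ hℓ hd => ?_) ht hp.ne_zero
      (nsmul_eq_zero_of_mTors (ψ := ψ) hy)
    refine Finset.mem_coe.mpr (Finset.mem_erase.mpr ⟨?_, hNS ℓ hℓ hd⟩)
    rintro rfl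
    exact hpN hd
  · by_contra hne
    exact h2 (Finset.mem_coe.mpr (Finset.mem_erase.mpr ⟨hne, Finset.mem_coe.mp h1⟩))

end System

section MPart

variable {R : Type} [CommRing R] [IsLocalRing R] [IsNoetherianRing R] {ι : Type}
  {θ : ι → ResidueField R} {H : Type} [AddCommGroup H] [Module R H] [Module.Finite R H]
  {T : ι → Module.End R H}

/-- A nonzero `𝔪`-part contains an eigenvector modulo `ϖ`. -/
theorem exists_eig_mod (hT : ∀ i j, Commute (T i) (T j)) {e : MvPolynomial ι R}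
    (he : IsIdem θ T hT e) (hnt : Nontrivial (mpart θ T hT)) {ϖ : R}
    (hϖ : maximalIdeal R = Ideal.span {ϖ}) :
    ∃ z ∈ mpart θ T hT, (∀ z' ∈ mpart θ T hT, z ≠ ϖ • z') ∧
      ∀ t : MvPolynomial ι R, evk θ t = 0 → ∃ y ∈ mpart θ T hT, cev T hT t z = ϖ • y := by
  have hnoeth : IsNoetherian R H := isNoetherian_of_isNoetherianRing_of_finite R H
  let W : Submodule R H := mpart θ T hT
  let TW : ι → Module.End R W := fun i => (T i).restrict fun x hx => T_mem_mpart hT i hx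
  have hTW : ∀ i j, Commute (TW i) (TW j) := fun i j => by
    refine LinearMap.ext fun x => Subtype.ext ?_
    have h1 := congrArg (fun F : Module.End R H => F x) (hT i j).eq
    exact h1
  have hsub : ∀ (t : MvPolynomial ι R) (x : W),
      ((cev TW hTW t x : W) : H) = cev T hT t (x : H) := fun t x =>
    cev_natural hTW hT W.subtype (fun _ _ => rfl) t x
  let P : Submodule R W := LinearMap.range (LinearMap.lsmul R W ϖ)
  have hPst : ∀ i, P ≤ P.comap (TW i) := by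
    rintro i _ ⟨y, rfl⟩
    exact ⟨TW i y, by
      rw [LinearMap.lsmul_apply, LinearMap.lsmul_apply, map_smul]⟩
  let TV : ι → Module.End R (W ⧸ P) := fun i => P.mapQ P (TW i) (hPst i)
  have hTV : ∀ i j, Commute (TV i) (TV j) := fun i j => by
    refine LinearMap.ext fun x => ?_
    obtain ⟨x, rfl⟩ := Submodule.mkQ_surjective P x
    have h1 := congrArg (fun F : Module.End R W => P.mkQ (F x)) (hTW i j).eq
    exact h1
  have hq : ∀ (t : MvPolynomial ι R) (x : W),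
      P.mkQ (cev TW hTW t x) = cev TV hTV t (P.mkQ x) := fun t x =>
    cev_natural hTW hTV P.mkQ (fun _ _ => rfl) t x
  have hfinV : Module.Finite R (W ⧸ P) := inferInstance
  have hartV : IsArtinian R (W ⧸ P) := by
    refine S41hm.isArtinian_of_killed fun r hr x => ?_
    obtain ⟨x, rfl⟩ := Submodule.mkQ_surjective P x
    rw [hϖ, Ideal.mem_span_singleton'] at hr
    obtain ⟨a, rfl⟩ := hr
    rw [← map_smul, Submodule.mkQ_apply, Submodule.Quotient.mk_eq_zero]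
    exact ⟨a • x, by rw [LinearMap.lsmul_apply, smul_smul, mul_comm]⟩
  have hV0 : (⊤ : Submodule R (W ⧸ P)) ≠ ⊥ := by
    intro h
    have h1 : (⊤ : Submodule R W) ≤ maximalIdeal R • ⊤ := by
      intro x _
      have h2 : P.mkQ x ∈ (⊤ : Submodule R (W ⧸ P)) := trivial
      rw [h, Submodule.mem_bot, Submodule.mkQ_apply, Submodule.Quotient.mk_eq_zero] at h2
      obtain ⟨y, rfl⟩ := h2
      rw [LinearMap.lsmul_apply]
      refine Submodule.smul_mem_smul ?_ trivial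
      rw [hϖ]
      exact Ideal.mem_span_singleton_self ϖ
    have h2 := Submodule.eq_bot_of_le_smul_of_le_jacobson_bot (maximalIdeal R) ⊤
      Module.Finite.fg_top h1 (maximalIdeal_le_jacobson _)
    obtain ⟨x, hx⟩ := exists_ne (0 : W)
    have h3 : x ∈ (⊤ : Submodule R W) := trivial
    rw [h2] at h3
    exact hx h3
  obtain ⟨v, -, hv0, hv⟩ := S41hm.exists_eigen (θ := θ) hTV ⊤ (fun _ _ _ => trivial) hV0
    (fun t ht => by
      have hsurj : Function.Surjective (cev TV hTV t) := by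
        intro y
        obtain ⟨y, rfl⟩ := Submodule.mkQ_surjective P y
        obtain ⟨x, hx, hxy⟩ := he.exists_preimage y.2 ht
        exact ⟨P.mkQ ⟨x, hx⟩, by
          rw [← hq]
          exact congrArg P.mkQ (Subtype.ext ((hsub t ⟨x, hx⟩).trans hxy))⟩
      have hinj := IsNoetherian.injective_of_surjective_endomorphism _ hsurj
      intro x _ hx
      exact hinj (hx.trans (map_zero _).symm))
  obtain ⟨z, rfl⟩ := Submodule.mkQ_surjective P v
  refine ⟨z, z.2, ?_, ?_⟩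
  · intro z' hz' h
    apply hv0
    rw [Submodule.mkQ_apply, Submodule.Quotient.mk_eq_zero]
    exact ⟨⟨z', hz'⟩, Subtype.ext h.symm⟩
  · intro t ht
    have h1 := hv t ht
    rw [← hq, Submodule.mkQ_apply, Submodule.Quotient.mk_eq_zero] at h1
    obtain ⟨y, hy⟩ := h1
    refine ⟨y, y.2, ?_⟩
    rw [← hsub, ← hy]
    rfl

/-- Enlarging the set of omitted primes enlarges the `𝔪`-part. -/
theorem Hm_le_of_subset {N : ℕ} [NeZero N] {R : Type} [CommRing R] [IsLocalRing R]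
    {ε : (ZMod N)ˣ →* Rˣ} {A : Type} [AddCommGroup A] [Module R A] {S S' : Set ℕ} (h : S' ⊆ S)
    {θ : PIdx S → ResidueField R} {θ' : PIdx S' → ResidueField R}
    (hθ : ∀ ℓ, θ' (inclIdx h ℓ) = θ ℓ) : Hm N ε A S' θ' ≤ Hm N ε A S θ := by
  intro x hx
  refine (mem_mpart _).mpr fun t ht => ?_
  obtain ⟨y, hy⟩ := (mem_mpart _).mp hx (MvPolynomial.rename (inclIdx h) t) (by
    intro h0
    apply ht
    rw [← h0, evk, evk, MvPolynomial.coe_eval₂Hom, MvPolynomial.coe_eval₂Hom,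
      MvPolynomial.eval₂_rename]
    congr 1
    funext ℓ
    exact (hθ ℓ).symm)
  refine ⟨y, ?_⟩
  rw [← hy, cev_rename (inclIdx h) (hop N ε A S) (hop_commute N ε A S) _ _ (fun _ => rfl)]

end MPart

section Main

variable {N p : ℕ} [NeZero N] {S : Finset ℕ} {𝒪 : Type} [CommRing 𝒪] [IsLocalRing 𝒪]
  [IsNoetherianRing 𝒪] [IsAdicComplete (maximalIdeal 𝒪) 𝒪] [IsAddTorsionFree 𝒪]
  [Finite (ResidueField 𝒪)]

/-- **Step (3)**: an element `x ≠ 0` of `J₀(N)[𝔪]` with `T_p² x = x` gives a class `z` in the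
`θ`-part of `H¹(Γ₀(N), 𝒪)`, not divisible by `ϖ`, with `T_p² z ≡ z` modulo `ϖ`. -/
theorem exists_class [CharP (ResidueField 𝒪) p] (hp : p.Prime) (hpN : ¬ p ∣ N)
    (hNS : ∀ q : ℕ, q.Prime → q ∣ N → q ∈ S) (hpS : p ∈ S)
    {ψ : HeckeAlgS (↑S : Set ℕ) →+* ResidueField 𝒪}
    {θ : PIdx (↑S : Set ℕ) → ResidueField 𝒪} (hψ : ∀ ℓ, ψ (MvPolynomial.X ℓ) = θ ℓ)
    {x : JZero N} (hx : letI := heckeModuleBar N; x ∈ mTors (JZero N) ψ) (hx0 : x ≠ 0)
    (hT : letI := heckeModuleBar N;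
      (MvPolynomial.X ⟨p, hp⟩ : HeckeAlg) • (MvPolynomial.X ⟨p, hp⟩ : HeckeAlg) • x = x)
    {ε : (ZMod N)ˣ →* 𝒪ˣ} (hε : ε = 1) {ϖ : 𝒪} (hϖ : maximalIdeal 𝒪 = Ideal.span {ϖ}) :
    ∃ z ∈ Hm N ε 𝒪 (↑S : Set ℕ) θ, (∀ z' ∈ Hm N ε 𝒪 (↑S : Set ℕ) θ, z ≠ ϖ • z') ∧
      ∃ y ∈ Hm N ε 𝒪 (↑S : Set ℕ) θ,
        heckeP N ε 𝒪 ⟨p, hp⟩ (heckeP N ε 𝒪 ⟨p, hp⟩ z) - z = ϖ • y := by
  obtain ⟨η, hη, hocc⟩ := exists_system hp hpN hNS hψ hx hx0 hT
  have hsub : (↑(S.erase p) : Set ℕ) ⊆ (↑S : Set ℕ) := by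
    rw [Finset.coe_subset]
    exact Finset.erase_subset _ _
  have hnt := S59aux.nontrivial_Hm_of_evS (N := N) (R := 𝒪) hε _ hocc
  obtain ⟨e, he⟩ := exists_isIdem_Hm (M := N) (S := (↑(S.erase p) : Set ℕ)) 𝒪 ε
    (thE (↑S : Set ℕ) (↑(S.erase p) : Set ℕ) θ η)
  have := fg_Gamma0 N
  have hfin : Module.Finite 𝒪 (HM N ε 𝒪) := finite_H1 _ _
  obtain ⟨z, hz, hz0, hzt⟩ := exists_eig_mod _ he hnt hϖ
  have hle := Hm_le_of_subset (N := N) (ε := ε) (A := 𝒪) hsub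
    (fun ℓ => thE_incl hsub θ η ℓ)
  have hpS' : p ∉ (↑(S.erase p) : Set ℕ) := fun h => Finset.notMem_erase p S (Finset.mem_coe.mp h)
  let i : PIdx (↑(S.erase p) : Set ℕ) := ⟨⟨p, hp⟩, hpS'⟩
  have hi : thE (↑S : Set ℕ) (↑(S.erase p) : Set ℕ) θ η i = ((η : ℤ) : ResidueField 𝒪) :=
    thE_of_mem θ η i (Finset.mem_coe.mpr hpS)
  refine ⟨z, hle hz, ?_, ?_⟩
  · intro z' _ h
    refine hz0 _ (he.apply_mem z') ?_
    rw [← map_smul, ← h]
    exact (he.mem_iff.mp hz).symm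
  · obtain ⟨y, hy, hzy⟩ := hzt (MvPolynomial.X i * MvPolynomial.X i - 1) (by
      rw [map_sub, map_mul, map_one, evk_X, hi, ← Int.cast_mul, hη, Int.cast_one, sub_self])
    refine ⟨y, hle hy, ?_⟩
    rw [← hzy, map_sub, map_mul, map_one, cev_X, LinearMap.sub_apply, Module.End.mul_apply,
      Module.End.one_apply]
    rfl

end Main

end Fermat.Agent.LRp

end
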